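import Fermat.Agent.S48.H856.IgusaBuild
import Fermat.Agent.S48.H828.IActJd

/-!
# S48 / RES / IGUSA1 — the CONCRETE `IgusaData` on helper828's full-level field (helper856)

`Ω := H828.IActField ι M` (`E` a field with `ι : E →+* ℂ`, `ζ_M ∈ E`), `ex := iactFieldExp`
(`X`-expansion, `X = q^{1/M}`), `𝒪` a discrete valuation subring of `E` with uniformiser `w₀`.

* `bdField`       : the `G`-stable subfield of all `f` such that every translate `g f` is a
                    quotient of elements with bounded denominators (generic);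
* `closure_le_bdField` : a subfield generated by a set whose translates have bounded denominators
                    lies in `bdField`;
* `iact_igusaData` : `IgusaData` for `Ffull := bdField`, `F0 := iactF0 = E(j_d : d ∣ M)`,
                    `V := gaussRing 𝒪 ex`, `G, B, t` = images of `SL₂(ℤ), Γ₀(M), T`;
                    ONLY hypothesis: `qep0` (node I-S28 = landed S18 `node_mod`, transported);
* `iact_stable`   : the Gauss ring is stable under `SL₂(ℤ)` on `bdField`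
                    (⟹ field `G_V` of `H588.StepCore` for the diamonds);
* `iact_qep_fin`  : the `q`-expansion principle for every subfield of `bdField`.
-/

set_option autoImplicit false
set_option linter.unusedSectionVars false

noncomputable section

open HahnSeries Polynomial ModularCurve

namespace Fermat.Agent.S48.H856

open Fermat.Agent.S18.Alg Fermat.Agent.S48.H828

/-! ### The field of elements all of whose translates have bounded denominators -/

section BdField

variable {K : Type*} [Field K] {𝒪 : ValuationSubring K} {L : Type*} [Field L]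
  {ex : L →+* LaurentSeries K} {w₀ : K} {w : L}

/-- The subfield of all `f` such that every translate `g f`, `g ∈ G`, is a quotient of elements
with bounded denominators. -/
def bdField (h : GaussHyp 𝒪 ex w₀ w) (G : Subgroup (L ≃+* L)) : Subfield L where
  carrier := {f | ∀ g ∈ G, HasBd 𝒪 ex w (g f)}
  mul_mem' := fun {a b} ha hb g hg => by rw [map_mul]; exact (ha g hg).mul (hb g hg)
  one_mem' := fun g _ => by rw [map_one]; exact hasBd_of_isBd isBd_one
  add_mem' := fun {a b} ha hb g hg => by rw [map_add]; exact (ha g hg).add h (hb g hg)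
  zero_mem' := fun g _ => by rw [map_zero]; exact hasBd_of_isBd isBd_zero
  neg_mem' := fun {a} ha g hg => by rw [map_neg]; exact (ha g hg).neg
  inv_mem' := fun a ha g hg => by rw [map_inv₀]; exact (ha g hg).inv

theorem mem_bdField {h : GaussHyp 𝒪 ex w₀ w} {G : Subgroup (L ≃+* L)} {f : L} :
    f ∈ bdField h G ↔ ∀ g ∈ G, HasBd 𝒪 ex w (g f) := Iff.rfl

theorem hasBd_of_mem_bdField {h : GaussHyp 𝒪 ex w₀ w} {G : Subgroup (L ≃+* L)} {f : L}
    (hf : f ∈ bdField h G) : HasBd 𝒪 ex w f := by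
  have := hf 1 G.one_mem
  simpa using this

theorem smul_mem_bdField {h : GaussHyp 𝒪 ex w₀ w} {G : Subgroup (L ≃+* L)} {f : L}
    (hf : f ∈ bdField h G) {g : L ≃+* L} (hg : g ∈ G) : g f ∈ bdField h G := by
  intro g' hg'
  have := hf (g' * g) (G.mul_mem hg' hg)
  simpa using this

/-- a set all of whose translates have bounded denominators generates a subfield of `bdField` -/
theorem closure_le_bdField (h : GaussHyp 𝒪 ex w₀ w) (G : Subgroup (L ≃+* L)) {S : Set L}
    (hS : ∀ s ∈ S, ∀ g ∈ G, IsBd 𝒪 ex w (g s)) : Subfield.closure S ≤ bdField h G := by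
  rw [Subfield.closure_le]
  intro s hs g hg
  exact hasBd_of_isBd (hS s hs g hg)

/-- constants have bounded denominators -/
theorem isBd_of_ex_eq_C (h : GaussHyp 𝒪 ex w₀ w) {f : L} {c : K}
    (hf : ex f = HahnSeries.C c) : IsBd 𝒪 ex w f := by
  by_cases hc : c = 0
  · refine ⟨0, ?_⟩
    rw [pow_zero, mul_one, hf, hc, map_zero]
    exact isInt_zero
  obtain ⟨z, hz⟩ := h.disc.disc c hc
  have hw0 : 𝒪.valuation w₀ ≠ 0 := (Valuation.ne_zero_iff _).mpr h.disc.w_ne
  refine ⟨(-z).toNat, ?_⟩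
  rw [map_mul, map_pow, hf, h.ex_w, ← map_pow, ← map_mul]
  apply isInt_C
  apply (𝒪.valuation_le_one_iff _).mp
  rw [map_mul, map_pow, hz, ← zpow_natCast, ← zpow_add₀ hw0]
  apply (zpow_le_one_iff_right_of_lt_one₀ h.disc.w_pos h.disc.w_lt).mpr
  have := Int.self_le_toNat (-z)
  omega

end BdField

/-! ### The `j`-expansion -/

section JX

variable (E : Type*) [Field E] [CharZero E] (M : ℕ) [NeZero M]

theorem coeff_jq_eq_intCast (k : ℤ) : ∃ n : ℤ, jq.coeff k = (n : ℚ) := by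
  rw [jq, HahnSeries.coeff_single_mul, one_mul]
  rcases lt_or_ge (k - -1) 0 with hk | hk
  · exact ⟨0, by rw [ofPowerSeries_coeff_of_neg _ hk]; simp⟩
  · obtain ⟨m, hm⟩ := Int.eq_ofNat_of_zero_le hk
    rw [hm, HahnSeries.ofPowerSeries_apply_coeff, jNumQ, PowerSeries.coeff_map]
    exact ⟨_, rfl⟩

theorem coeff_jq_neg_one : jq.coeff (-1) = 1 := by
  rw [jq, HahnSeries.coeff_single_mul, one_mul]
  have : (-1 : ℤ) - -1 = ((0 : ℕ) : ℤ) := by norm_num
  rw [this, HahnSeries.ofPowerSeries_apply_coeff, PowerSeries.coeff_zero_eq_constantCoeff_apply,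
    constantCoeff_jNumQ]

theorem coeff_jq_of_lt {k : ℤ} (hk : k < -1) : jq.coeff k = 0 := by
  rw [jq, HahnSeries.coeff_single_mul, one_mul]
  exact ofPowerSeries_coeff_of_neg _ (by omega)

theorem coeff_iactJX_mul (k : ℤ) :
    (iactJX E M).coeff ((M : ℤ) * k) = algebraMap ℚ E (jq.coeff k) := by
  rw [iactJX, qExpand_coeff_mul, coeffEmb_coeff]

theorem coeff_iactJX_of_not_dvd {k : ℤ} (hk : ¬ (M : ℤ) ∣ k) : (iactJX E M).coeff k = 0 := by
  rw [iactJX, qExpand_coeff_of_not_dvd _ _ hk]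

variable {E}

theorem isInt_iactJX (𝒪 : ValuationSubring E) : IsInt 𝒪 (iactJX E M) := by
  intro k
  by_cases hk : (M : ℤ) ∣ k
  · obtain ⟨m, rfl⟩ := hk
    rw [coeff_iactJX_mul]
    obtain ⟨n, hn⟩ := coeff_jq_eq_intCast m
    rw [hn]
    have : algebraMap ℚ E ((n : ℤ) : ℚ) = (n : E) := by simp
    rw [this]
    exact intCast_mem 𝒪 n
  · rw [coeff_iactJX_of_not_dvd E M hk]
    exact 𝒪.zero_mem

variable (E)

theorem coeff_iactJX_neg : (iactJX E M).coeff (-(M : ℤ)) = 1 := by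
  have : -(M : ℤ) = (M : ℤ) * (-1) := by ring
  rw [this, coeff_iactJX_mul, coeff_jq_neg_one, map_one]

theorem coeff_iactJX_of_lt {k : ℤ} (hk : k < -(M : ℤ)) : (iactJX E M).coeff k = 0 := by
  by_cases hd : (M : ℤ) ∣ k
  · obtain ⟨m, rfl⟩ := hd
    rw [coeff_iactJX_mul]
    have hM : (0 : ℤ) < M := by exact_mod_cast Nat.pos_of_ne_zero (NeZero.ne M)
    have hm : m < -1 := by
      by_contra hcon
      rw [not_lt] at hcon
      nlinarith
    rw [coeff_jq_of_lt hm, map_zero]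
  · exact coeff_iactJX_of_not_dvd E M hd

theorem iactJX_ne_zero : iactJX E M ≠ 0 := by
  intro h
  have := coeff_iactJX_neg E M
  rw [h, HahnSeries.coeff_zero] at this
  exact zero_ne_one this

theorem order_iactJX : (iactJX E M).order = -(M : ℤ) := by
  apply le_antisymm
  · apply HahnSeries.order_le_of_coeff_ne_zero
    rw [coeff_iactJX_neg]
    exact one_ne_zero
  · by_contra hlt
    rw [not_le] at hlt
    exact iactJX_ne_zero E M (HahnSeries.coeff_order_eq_zero.mp (coeff_iactJX_of_lt E M hlt))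

theorem leadingCoeff_iactJX : (iactJX E M).leadingCoeff = 1 := by
  rw [HahnSeries.leadingCoeff_eq, order_iactJX, coeff_iactJX_neg]

end JX

/-! ### The concrete `IgusaData` -/

section Conc

variable {E : Type*} [Field E] [CharZero E] {ι : E →+* ℂ} {M : ℕ} [NeZero M]
  (𝒪 : ValuationSubring E) {w₀ : E}

/-- the Gauss hypothesis on `IActField` -/
theorem iact_gaussHyp (hd : IsDiscrete 𝒪 w₀) :
    GaussHyp 𝒪 (iactFieldExp ι M) w₀ (iactFC ι M w₀) :=
  ⟨hd, iactFieldExp_C w₀⟩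

variable (ζ : Eˣ) (hζ : Units.map (ι : E →* ℂ) ζ = Fermat.Agent.S24.infRoot 1 M)

include hζ in
theorem iact_zeta_pow : (ζ : E) ^ M = 1 := by
  apply ι.injective
  have h0 : ι (ζ : E) = Complex.exp (2 * Real.pi * Complex.I * ((1 : ℤ) : ℂ) / M) := by
    have := congrArg Units.val hζ
    simpa using this
  have hM : (M : ℂ) ≠ 0 := by exact_mod_cast NeZero.ne M
  rw [map_pow, map_one, h0, ← Complex.exp_nat_mul]
  have : (M : ℂ) * (2 * Real.pi * Complex.I * ((1 : ℤ) : ℂ) / M) = 2 * Real.pi * Complex.I := by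
    field_simp
    push_cast
    ring
  rw [this, Complex.exp_two_pi_mul_I]

include hζ in
theorem iact_valuation_zeta : 𝒪.valuation ((ζ⁻¹ : Eˣ) : E) = 1 := by
  have h1 : 𝒪.valuation (ζ : E) ^ M = 1 := by rw [← map_pow, iact_zeta_pow ζ hζ, map_one]
  have hM : M ≠ 0 := NeZero.ne M
  have h2 : 𝒪.valuation (ζ : E) = 1 := by
    rcases lt_trichotomy (𝒪.valuation (ζ : E)) 1 with h | h | h
    · exact absurd h1 (ne_of_lt (pow_lt_one₀ zero_le h hM))
    · exact h
    · exact absurd h1 (ne_of_gt (one_lt_pow₀ h hM))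
  rw [Units.val_inv_eq_inv_val, map_inv₀, h2, inv_one]

include hζ in
/-- `T` acts on expansions by `X ↦ ζ⁻¹ X` -/
theorem iact_twist (f : IActField ι M) (k : ℤ) :
    (iactFieldExp ι M (iactT ι M f)).coeff k
      = ((ζ⁻¹ : Eˣ) : E) ^ k * (iactFieldExp ι M f).coeff k := by
  have h := iactFieldExp_T_smul ζ hζ f
  have h1 : iactT ι M f = ModularGroup.T • f := rfl
  rw [h1, h, Fermat.Agent.S24.infTwist_coeff, Units.val_zpow_eq_zpow_val, mul_comm]

theorem iact_eval₂_mem_ratField (P : Polynomial E) :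
    Polynomial.eval₂ (iactFC ι M) (iactFJ ι M) P
      ∈ ratField (iactFC ι M).fieldRange (iactFJ ι M) := by
  rw [Polynomial.eval₂_eq_sum_range]
  refine sum_mem fun i _ => mul_mem ?_ (pow_mem ?_ i)
  · exact Subfield.subset_closure (Or.inl ⟨_, rfl⟩)
  · exact Subfield.subset_closure (Or.inr rfl)

/-- the full-level field with bounded denominators at all cusps -/
def iactBd (hd : IsDiscrete 𝒪 w₀) : Subfield (IActField ι M) :=
  bdField (iact_gaussHyp (ι := ι) (M := M) 𝒪 hd) (iactG ι M)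

theorem iactFC_mem_iactBd (hd : IsDiscrete 𝒪 w₀) (c : E) :
    iactFC ι M c ∈ iactBd (ι := ι) (M := M) 𝒪 hd := by
  intro g hg
  rw [iactG_fix_C g hg]
  exact hasBd_of_isBd (isBd_of_ex_eq_C (iact_gaussHyp 𝒪 hd) (iactFieldExp_C c))

theorem iactFJ_mem_iactBd (hd : IsDiscrete 𝒪 w₀) :
    iactFJ ι M ∈ iactBd (ι := ι) (M := M) 𝒪 hd := by
  intro g hg
  rw [iactG_fix_J g hg]
  exact hasBd_of_isBd (isBd_of_isInt (by rw [iactFieldExp_J]; exact isInt_iactJX M 𝒪))

/-- membership criterion: every `SL₂(ℤ)`-translate has an expansion with bounded denominators -/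
theorem mem_iactBd_of_isBd (hd : IsDiscrete 𝒪 w₀) {f : IActField ι M}
    (h : ∀ γ : Matrix.SpecialLinearGroup (Fin 2) ℤ,
      IsBd 𝒪 (iactFieldExp ι M) (iactFC ι M w₀) (γ • f)) :
    f ∈ iactBd (ι := ι) (M := M) 𝒪 hd := by
  rintro g ⟨γ, rfl⟩
  exact hasBd_of_isBd (h γ)

/-- a set of elements all of whose translates have bounded denominators generates a subfield of
`iactBd` -/
theorem closure_le_iactBd (hd : IsDiscrete 𝒪 w₀) {S : Set (IActField ι M)}
    (hS : ∀ s ∈ S, ∀ γ : Matrix.SpecialLinearGroup (Fin 2) ℤ,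
      IsBd 𝒪 (iactFieldExp ι M) (iactFC ι M w₀) (γ • s)) :
    Subfield.closure S ≤ iactBd (ι := ι) (M := M) 𝒪 hd := by
  rw [Subfield.closure_le]
  exact fun s hs => mem_iactBd_of_isBd 𝒪 hd (hS s hs)

/-- **The concrete `IgusaData`** on `IActField ι M`; the only hypothesis is `qep0`
(node I-S28: the `q`-expansion principle of `X₀(M)`, landed S18 `node_mod`, transported along
`q ↦ X^M`). -/
theorem iact_igusaData (hd : IsDiscrete 𝒪 w₀)
    (hqep0 : ∀ b ∈ chart (iactF0 ζ hζ) (𝒪.toSubring.map (iactFC ι M)) (iactFJ ι M),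
      b * (iactFC ι M w₀)⁻¹ ∈ gaussRing 𝒪 (iactFieldExp ι M) →
        b * (iactFC ι M w₀)⁻¹ ∈ chart (iactF0 ζ hζ) (𝒪.toSubring.map (iactFC ι M))
          (iactFJ ι M)) :
    IgusaData (iactFC ι M).fieldRange (iactF0 ζ hζ) (iactBd (ι := ι) (M := M) 𝒪 hd)
      (𝒪.toSubring.map (iactFC ι M)) (gaussRing 𝒪 (iactFieldExp ι M)) (iactFC ι M w₀)
      (iactFJ ι M) (iactG ι M) (iactB ι M) (iactT ι M) := by
  refine igusaData_of_expansion (iactFC ι M) iactFieldExp_C (iact_gaussHyp 𝒪 hd)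
    (iactBd 𝒪 hd) (fun f hf => hasBd_of_mem_bdField hf) (iactFC_mem_iactBd 𝒪 hd)
    (iactFJ_mem_iactBd 𝒪 hd) (by rw [iactFieldExp_J]; exact isInt_iactJX M 𝒪)
    (Nat.pos_of_ne_zero (NeZero.ne M)) (by rw [iactFieldExp_J]; exact order_iactJX E M)
    (by rw [iactFieldExp_J, leadingCoeff_iactJX, map_one]) (iactF0 ζ hζ) (iactG ι M)
    (iactB ι M) (iactT ι M) iactG_finite (fun g hg c => iactG_fix_C g hg c)
    (fun g hg => iactG_fix_J g hg) (fun g hg f hf => smul_mem_bdField hf hg) ?_ iactB_le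
    iactT_mem iactT_normal iactT_gen (iact_valuation_zeta 𝒪 ζ hζ) (iact_twist ζ hζ)
    (fun f _ hf => iactB_inv ζ hζ f hf) hqep0
  intro f _ hf
  obtain ⟨P, Q, -, rfl⟩ := iactG_inv f hf
  exact div_mem (iact_eval₂_mem_ratField P) (iact_eval₂_mem_ratField Q)

/-- **IGUSA1, stability**: on `iactBd`, the Gauss valuation ring is stable under `SL₂(ℤ)`;
in particular under the image of `Γ₀(M)` (the diamonds of `E·F₁(M)`). -/
theorem iact_stable (hd : IsDiscrete 𝒪 w₀)
    (hqep0 : ∀ b ∈ chart (iactF0 ζ hζ) (𝒪.toSubring.map (iactFC ι M)) (iactFJ ι M),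
      b * (iactFC ι M w₀)⁻¹ ∈ gaussRing 𝒪 (iactFieldExp ι M) →
        b * (iactFC ι M w₀)⁻¹ ∈ chart (iactF0 ζ hζ) (𝒪.toSubring.map (iactFC ι M))
          (iactFJ ι M))
    (γ : Matrix.SpecialLinearGroup (Fin 2) ℤ) {f : IActField ι M}
    (hf : f ∈ iactBd (ι := ι) (M := M) 𝒪 hd) (hfV : f ∈ gaussRing 𝒪 (iactFieldExp ι M)) :
    γ • f ∈ gaussRing 𝒪 (iactFieldExp ι M) :=
  (iact_igusaData 𝒪 ζ hζ hd hqep0).stable (iactRho ι M γ) ⟨γ, rfl⟩ f hf hfV

/-- **IGUSA1, `q`-expansion principle** for every subfield of `iactBd` (e.g. the image of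
`E·F₁(M)`). -/
theorem iact_qep_fin (hd : IsDiscrete 𝒪 w₀)
    (hqep0 : ∀ b ∈ chart (iactF0 ζ hζ) (𝒪.toSubring.map (iactFC ι M)) (iactFJ ι M),
      b * (iactFC ι M w₀)⁻¹ ∈ gaussRing 𝒪 (iactFieldExp ι M) →
        b * (iactFC ι M w₀)⁻¹ ∈ chart (iactF0 ζ hζ) (𝒪.toSubring.map (iactFC ι M))
          (iactFJ ι M))
    (Fc : Subfield (IActField ι M)) (hFc : Fc ≤ iactBd (ι := ι) (M := M) 𝒪 hd)
    (hwFc : iactFC ι M w₀ ∈ Fc) :
    ∀ b ∈ chart Fc (𝒪.toSubring.map (iactFC ι M)) (iactFJ ι M),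
      b * (iactFC ι M w₀)⁻¹ ∈ gaussRing 𝒪 (iactFieldExp ι M) →
        b * (iactFC ι M w₀)⁻¹ ∈ chart Fc (𝒪.toSubring.map (iactFC ι M)) (iactFJ ι M) :=
  (iact_igusaData 𝒪 ζ hζ hd hqep0).qep_fin Fc hFc hwFc

end Conc

end Fermat.Agent.S48.H856
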