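import Mathlib

/-!
# S48 / RES (Tower A1) / node IGUSA1 — the abstract core (helper856), Mathlib-only

Good reduction of the full-level (hence of the `Γ₁`-) modular function field at every prime
`p ∤ M`, deduced from Igusa's theorem for `X₀(M)` (landed S28) by pure Galois theory.

Setting: `L` a field with an action of a finite group `G` (`L` = full-level field over a number
field `E ∋ ζ_M`, `G` = image of `SL₂(ℤ)`), `V` a discrete valuation subring of `L` with
uniformiser `w` (the Gauss valuation on `X`-expansions, `X = q^{1/M}`), `A₀ ⊆ Lᴳ` a subring with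
`Frac A₀ = Lᴳ` (`A₀ = R[j]`), `B ≤ G` (the image of `Γ₀(M)`), `t ∈ G` (the image of
`T = (1 1; 0 1)`, acting by `X ↦ ζ X`).

* `eq_top_of_normalClosure_of_mul` : group theory (`G = D·B`, conjugates of `t` by `B` in `D`,
  normal closure of `t` is `G` ⟹ `D = G`);
* `smul_ideal_eq_of_unipotent`     : the same for the stabiliser of a prime ideal;
* `stable_of_unipotent`            : `V` is `G`-stable (**unique extension of the Gauss valuation**)
  as soon as `t` preserves `V` and the `q`-expansion principle holds for `B`-invariant elements;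
* `qep_of_stable`, `igusa_qep`     : the `q`-expansion principle for ALL of `L`
  (`b` integral over `A₀`, `b/w ∈ V` ⟹ `b/w` integral over `A₀`), in the shape of
  `Fermat.Agent.S18.Alg.GoodModel.qep_fin`.
-/

set_option autoImplicit false

open scoped Pointwise

namespace Fermat.Agent.S48.H856

/-! ## 1. Group theory -/

/-- If `G = D·B`, the `B`-conjugates of `t` lie in `D`, and the normal closure of `t` is `G`,
then `D = G`. -/
theorem eq_top_of_normalClosure_of_mul {G : Type*} [Group G] (B D : Subgroup G) (t : G)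
    (htn : ∀ b ∈ B, b * t * b⁻¹ ∈ D)
    (hDB : ∀ g : G, ∃ d ∈ D, ∃ b ∈ B, g = d * b)
    (hgen : Subgroup.normalClosure ({t} : Set G) = ⊤) : D = ⊤ := by
  rw [eq_top_iff, ← hgen]
  unfold Subgroup.normalClosure
  rw [Subgroup.closure_le]
  intro x hx
  rw [Group.mem_conjugatesOfSet_iff] at hx
  obtain ⟨a, ha, hax⟩ := hx
  rw [Set.mem_singleton_iff] at ha
  subst ha
  obtain ⟨c, rfl⟩ := isConj_iff.mp hax
  obtain ⟨d, hd, b, hb, rfl⟩ := hDB c
  have h : d * b * a * (d * b)⁻¹ = d * (b * a * b⁻¹) * d⁻¹ := by group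
  rw [SetLike.mem_coe, h]
  exact D.mul_mem (D.mul_mem hd (htn b hb)) (D.inv_mem hd)

/-! ## 2. Prime ideals -/

section Ideal

variable {C : Type*} [CommRing C] {G : Type*} [Group G] [Finite G] [MulSemiringAction G C]

/-- A prime ideal `P` of a ring with `G`-action is `G`-stable as soon as it is stable under an
element `t` whose normal closure is `G`, and its trace on the invariants of a subgroup `B`
normalising `⟨t⟩` is the same for all conjugates of `P`. -/
theorem smul_ideal_eq_of_unipotent (P : Ideal C) [P.IsPrime] (B : Subgroup G) (t : G)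
    (htn : ∀ b ∈ B, b * t * b⁻¹ ∈ Subgroup.zpowers t)
    (htP : t • P = P)
    (hB : ∀ g : G, ∀ x : C, (∀ b ∈ B, b • x = x) → (x ∈ g • P ↔ x ∈ P))
    (hgen : Subgroup.normalClosure ({t} : Set G) = ⊤) (g : G) : g • P = P := by
  have htD : t ∈ MulAction.stabilizer G P := htP
  have hzD : Subgroup.zpowers t ≤ MulAction.stabilizer G P := by
    rwa [Subgroup.zpowers_le]
  have hDB : ∀ g : G, ∃ d ∈ MulAction.stabilizer G P, ∃ b ∈ B, g = d * b := by
    intro g
    have : Algebra.IsInvariant (FixedPoints.subring C B) C B :=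
      ⟨fun x hx => ⟨⟨x, hx⟩, rfl⟩⟩
    have hQ : (g⁻¹ • P).IsPrime := Ideal.IsPrime.smul g⁻¹
    have hPQ : P.under (FixedPoints.subring C B) = (g⁻¹ • P).under (FixedPoints.subring C B) := by
      ext x
      simp only [Ideal.under_def, Ideal.mem_comap]
      exact (hB g⁻¹ x.1 (fun b hb => x.2 ⟨b, hb⟩)).symm
    obtain ⟨β, hβ⟩ := Algebra.IsInvariant.exists_smul_of_under_eq
      (FixedPoints.subring C B) C B P (g⁻¹ • P) hPQ
    have hβ' : g⁻¹ • P = (β : G) • P := hβ
    refine ⟨g * β, ?_, (β : G)⁻¹, B.inv_mem β.2, by group⟩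
    rw [MulAction.mem_stabilizer_iff, mul_smul, ← hβ', smul_inv_smul]
  have hD := eq_top_of_normalClosure_of_mul B (MulAction.stabilizer G P) t
    (fun b hb => hzD (htn b hb)) hDB hgen
  have hg : g ∈ MulAction.stabilizer G P := hD ▸ Subgroup.mem_top g
  exact hg

end Ideal


/-! ## 3. Discrete valuation rings with a group action -/

section Valuation

variable {L : Type*} [Field L] {G : Type*} [Group G] [MulSemiringAction G L]

/-- `V` is a discrete valuation subring of `L` with uniformiser `w`. -/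
structure IsDiscrete (V : ValuationSubring L) (w : L) : Prop where
  w_lt : V.valuation w < 1
  w_ne : w ≠ 0
  disc : ∀ y : L, y ≠ 0 → ∃ n : ℤ, V.valuation y = V.valuation w ^ n

variable {V : ValuationSubring L} {w : L}

theorem IsDiscrete.w_pos (h : IsDiscrete V w) : 0 < V.valuation w :=
  zero_lt_iff.mpr ((Valuation.ne_zero_iff _).mpr h.w_ne)

/-- an element integral over a subring of `V` lies in `V` -/
theorem mem_of_isIntegral {A₀ : Subring L} (hA_le : A₀ ≤ V.toSubring) {c : L}
    (hc : IsIntegral A₀ c) : c ∈ V := by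
  have h1 : IsIntegral V c := by
    obtain ⟨p, hmonic, hp⟩ := hc
    refine ⟨p.map (Subring.inclusion hA_le), hmonic.map _, ?_⟩
    rw [Polynomial.eval₂_map]
    exact hp
  obtain ⟨y, hy⟩ := IsIntegrallyClosed.isIntegral_iff.mp h1
  rw [← hy]
  exact y.2

/-- the image of an integral element under an automorphism fixing the base is integral -/
theorem isIntegral_smul {A₀ : Subring L} (hA_fix : ∀ a ∈ A₀, ∀ g : G, g • a = a) {c : L}
    (hc : IsIntegral A₀ c) (g : G) : IsIntegral A₀ (g • c) := by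
  obtain ⟨p, hmonic, hp⟩ := hc
  refine ⟨p, hmonic, ?_⟩
  have h1 : (MulSemiringAction.toRingHom G L g).comp (algebraMap A₀ L) = algebraMap A₀ L := by
    ext a
    exact hA_fix a.1 a.2 g
  have h2 := Polynomial.hom_eval₂ p (algebraMap A₀ L) (MulSemiringAction.toRingHom G L g) c
  rw [hp, map_zero, h1] at h2
  exact h2.symm


variable [Finite G]

/-- every element of `L` has a nonzero multiple (by an element of `A₀`) integral over `A₀`,
as soon as the invariants of the finite group `G` lie in the fraction field of `A₀` -/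
theorem exists_integral_mul (A₀ : Subring L)
    (hA_frac : ∀ y : L, (∀ g : G, g • y = y) → ∃ a ∈ A₀, ∃ s ∈ A₀, s ≠ 0 ∧ y * s = a) (x : L) :
    ∃ s ∈ A₀, s ≠ 0 ∧ IsIntegral A₀ (x * s) := by
  classical
  cases nonempty_fintype G
  set f := MulSemiringAction.charpoly G x with hf
  have hcoef : ∀ i : ℕ, ∃ a ∈ A₀, ∃ s ∈ A₀, s ≠ 0 ∧ f.coeff i * s = a := fun i =>
    hA_frac _ (fun g => MulSemiringAction.smul_coeff_charpoly x i g)
  choose a ha s hs hs0 has using hcoef
  set n := f.natDegree with hn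
  set S : L := ∏ i ∈ Finset.range (n + 1), s i with hS
  have hS0 : S ≠ 0 := Finset.prod_ne_zero_iff.mpr fun i _ => hs0 i
  have hSmem : ∀ i : ℕ, S * f.coeff i ∈ A₀ := by
    intro i
    by_cases hi : i ∈ Finset.range (n + 1)
    · have h1 : S = (∏ j ∈ (Finset.range (n + 1)).erase i, s j) * s i := by
        rw [hS, Finset.prod_erase_mul _ _ hi]
      have h2 : S * f.coeff i = (∏ j ∈ (Finset.range (n + 1)).erase i, s j) * a i := by
        rw [h1, ← has i]; ring
      rw [h2]
      exact A₀.mul_mem (A₀.prod_mem fun j _ => hs j) (ha i)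
    · have h0 : f.coeff i = 0 := by
        apply Polynomial.coeff_eq_zero_of_natDegree_lt
        rw [Finset.mem_range, not_lt] at hi
        omega
      rw [h0, mul_zero]
      exact A₀.zero_mem
  have hlift : Polynomial.C S * f ∈ Polynomial.lifts (algebraMap A₀ L) := by
    rw [Polynomial.lifts_iff_coeff_lifts]
    intro i
    rw [Polynomial.coeff_C_mul]
    exact ⟨⟨_, hSmem i⟩, rfl⟩
  obtain ⟨p, hp⟩ := hlift
  replace hp : p.map (algebraMap A₀ L) = Polynomial.C S * f := hp
  have hp0 : p ≠ 0 := by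
    rintro rfl
    rw [Polynomial.map_zero] at hp
    have hf0 : f ≠ 0 := (MulSemiringAction.monic_charpoly G x).ne_zero
    exact mul_ne_zero (Polynomial.C_ne_zero.mpr hS0) hf0 hp.symm
  have halg : IsAlgebraic A₀ x := by
    refine ⟨p, hp0, ?_⟩
    rw [Polynomial.aeval_def, Polynomial.eval₂_eq_eval_map, hp, Polynomial.eval_mul,
      MulSemiringAction.eval_charpoly, mul_zero]
  obtain ⟨y, hy0, hy⟩ := halg.exists_integral_multiple
  refine ⟨y.1, y.2, fun h => hy0 (Subtype.ext h), ?_⟩
  have : y • x = x * (y : L) := by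
    rw [Algebra.smul_def, mul_comm]; rfl
  rwa [this] at hy

variable (V w) in
/-- **Key inequality.**  If the `q`-expansion principle holds for `B`-invariant elements, then
every conjugate valuation is `≥` the given one on `B`-invariant elements. -/
theorem valuation_smul_le_of_invariant (A₀ : Subring L) (B : Subgroup G)
    (hV : IsDiscrete V w)
    (hA_fix : ∀ a ∈ A₀, ∀ g : G, g • a = a)
    (hA_frac : ∀ y : L, (∀ g : G, g • y = y) → ∃ a ∈ A₀, ∃ s ∈ A₀, s ≠ 0 ∧ y * s = a)
    (hA_le : A₀ ≤ V.toSubring) (hw_mem : w ∈ A₀)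
    (hq0 : ∀ b : L, (∀ β ∈ B, β • b = b) → IsIntegral A₀ b → b * w⁻¹ ∈ V →
      IsIntegral A₀ (b * w⁻¹))
    (x : L) (hx : ∀ β ∈ B, β • x = x) (h : G) :
    V.valuation (h • x) ≤ V.valuation x := by
  by_cases hx0 : x = 0
  · rw [hx0, smul_zero]
  obtain ⟨s, hs, hs0, hc⟩ := exists_integral_mul (G := G) A₀ hA_frac x
  set c := x * s with hcdef
  have hc0 : c ≠ 0 := mul_ne_zero hx0 hs0
  have hwfix : ∀ g : G, g • w = w := fun g => hA_fix w hw_mem g
  have hwinvfix : ∀ g : G, g • w⁻¹ = w⁻¹ := fun g => by rw [smul_inv'', hwfix]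
  have hcB : ∀ β ∈ B, β • c = c := fun β hβ => by
    rw [hcdef, smul_mul', hx β hβ, hA_fix s hs β]
  have hcV : c ∈ V := mem_of_isIntegral hA_le hc
  obtain ⟨n, hn⟩ := hV.disc c hc0
  have hn0 : 0 ≤ n := by
    have h1 : V.valuation c ≤ 1 := (V.valuation_le_one_iff c).mpr hcV
    rw [hn] at h1
    exact (zpow_le_one_iff_right_of_lt_one₀ hV.w_pos hV.w_lt).mp h1
  obtain ⟨N, rfl⟩ := Int.eq_ofNat_of_zero_le hn0
  have hvwinv : V.valuation w⁻¹ = (V.valuation w)⁻¹ := map_inv₀ _ _
  have hval : ∀ i : ℕ, V.valuation (c * w⁻¹ ^ i) = V.valuation w ^ ((N : ℤ) - i) := by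
    intro i
    rw [map_mul, map_pow, hn, hvwinv, inv_pow, ← zpow_natCast (V.valuation w) i,
      ← zpow_neg, ← zpow_add₀ hV.w_pos.ne', sub_eq_add_neg]
  have hind : ∀ i : ℕ, i ≤ N → IsIntegral A₀ (c * w⁻¹ ^ i) ∧ ∀ β ∈ B, β • (c * w⁻¹ ^ i) = c * w⁻¹ ^ i := by
    intro i
    induction i with
    | zero => intro _; simpa using ⟨hc, hcB⟩
    | succ i ih =>
      intro hi
      obtain ⟨h1, h2⟩ := ih (by omega)
      have h3 : c * w⁻¹ ^ (i + 1) = c * w⁻¹ ^ i * w⁻¹ := by rw [pow_succ]; ring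
      have h4 : c * w⁻¹ ^ i * w⁻¹ ∈ V := by
        rw [← h3, ← V.valuation_le_one_iff, hval]
        apply (zpow_le_one_iff_right_of_lt_one₀ hV.w_pos hV.w_lt).mpr
        push_cast
        omega
      refine ⟨h3 ▸ hq0 _ h2 h1 h4, fun β hβ => ?_⟩
      rw [h3, smul_mul', h2 β hβ, hwinvfix]
  have hd := (hind N le_rfl).1
  have hd' : h • (c * w⁻¹ ^ N) ∈ V := mem_of_isIntegral hA_le (isIntegral_smul hA_fix hd h)
  rw [smul_mul', smul_pow', hwinvfix, ← V.valuation_le_one_iff, map_mul, map_pow, hvwinv,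
    inv_pow] at hd'
  have h5 : V.valuation (h • c) ≤ V.valuation w ^ N := by
    have hpos : 0 < V.valuation w ^ N := pow_pos hV.w_pos N
    calc V.valuation (h • c) = V.valuation (h • c) * (V.valuation w ^ N)⁻¹ * V.valuation w ^ N := by
          rw [mul_assoc, inv_mul_cancel₀ hpos.ne', mul_one]
      _ ≤ 1 * V.valuation w ^ N := by gcongr
      _ = V.valuation w ^ N := one_mul _
  have h6 : V.valuation (h • c) = V.valuation (h • x) * V.valuation s := by
    rw [hcdef, smul_mul', hA_fix s hs h, map_mul]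
  have h7 : V.valuation c = V.valuation x * V.valuation s := by rw [hcdef, map_mul]
  have hspos : 0 < V.valuation s := zero_lt_iff.mpr ((Valuation.ne_zero_iff _).mpr hs0)
  rw [zpow_natCast] at hn
  rw [← hn, h6, h7] at h5
  exact le_of_mul_le_mul_right h5 hspos


/-! ### The `G`-stable core of `V` -/

variable (G V) in
/-- the `G`-stable subring `⋂ g, g⁻¹ • V` of `L` -/
def coreRing : Subring L where
  carrier := {y | ∀ g : G, g • y ∈ V}
  zero_mem' := fun g => by rw [smul_zero]; exact V.zero_mem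
  one_mem' := fun g => by rw [smul_one]; exact V.one_mem
  add_mem' := fun ha hb g => by rw [smul_add]; exact V.add_mem _ _ (ha g) (hb g)
  mul_mem' := fun ha hb g => by rw [smul_mul']; exact V.mul_mem _ _ (ha g) (hb g)
  neg_mem' := fun ha g => by rw [smul_neg]; exact V.neg_mem _ (ha g)

omit [Finite G] in
theorem mem_coreRing {y : L} : y ∈ coreRing G V ↔ ∀ g : G, g • y ∈ V := Iff.rfl

instance instIsInvariantSubringCoreRing : IsInvariantSubring G (coreRing G V) where
  smul_mem g x hx := fun g' => by rw [smul_smul]; exact hx _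

omit [Finite G] in
theorem coreRing_le : coreRing G V ≤ V.toSubring := fun y hy => by
  have := hy 1
  rwa [one_smul] at this

omit [Finite G] in
theorem smul_zpow_of_fixed {g : G} {w : L} (hw : g • w = w) (k : ℤ) : g • w ^ k = w ^ k := by
  cases k with
  | ofNat k => rw [Int.ofNat_eq_natCast, zpow_natCast, smul_pow', hw]
  | negSucc k => rw [zpow_negSucc, smul_inv'', smul_pow', hw]

theorem valuation_lt_one_iff_inv_notMem {y : L} (hy : y ≠ 0) :
    V.valuation y < 1 ↔ y⁻¹ ∉ V := by
  rw [← V.valuation_le_one_iff, map_inv₀, not_le]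
  have hpos : 0 < V.valuation y := zero_lt_iff.mpr ((Valuation.ne_zero_iff _).mpr hy)
  constructor
  · intro h
    exact (one_lt_inv₀ hpos).mpr h
  · intro h
    exact (one_lt_inv₀ hpos).mp h

/-- **Unique extension of the Gauss valuation.**  `V` is stable under `G` (all conjugate
valuations coincide) as soon as: `t` preserves `V`, the normal closure of `t` is `G`, the
subgroup `B` normalises `⟨t⟩`, and the `q`-expansion principle holds for `B`-invariant
elements. -/
theorem valuation_smul_of_unipotent (V : ValuationSubring L) (w : L) (A₀ : Subring L)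
    (B : Subgroup G) (t : G) (hV : IsDiscrete V w)
    (hA_fix : ∀ a ∈ A₀, ∀ g : G, g • a = a)
    (hA_frac : ∀ y : L, (∀ g : G, g • y = y) → ∃ a ∈ A₀, ∃ s ∈ A₀, s ≠ 0 ∧ y * s = a)
    (hA_le : A₀ ≤ V.toSubring) (hw_mem : w ∈ A₀)
    (htn : ∀ b ∈ B, b * t * b⁻¹ ∈ Subgroup.zpowers t)
    (hgen : Subgroup.normalClosure ({t} : Set G) = ⊤)
    (htV : ∀ y : L, t • y ∈ V ↔ y ∈ V)
    (hq0 : ∀ b : L, (∀ β ∈ B, β • b = b) → IsIntegral A₀ b → b * w⁻¹ ∈ V →
      IsIntegral A₀ (b * w⁻¹))
    (g : G) (y : L) : V.valuation (g • y) = V.valuation y := by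
  classical
  cases nonempty_fintype G
  have key := valuation_smul_le_of_invariant V w A₀ B hV hA_fix hA_frac hA_le hw_mem hq0
  have hwfix : ∀ g : G, g • w = w := fun g => hA_fix w hw_mem g
  -- the prime ideal `P` of the core
  set P : Ideal (coreRing G V) :=
    (IsLocalRing.maximalIdeal V).comap (Subring.inclusion (coreRing_le (G := G) (V := V))) with hP
  have hmemP : ∀ x : coreRing G V, x ∈ P ↔ V.valuation (x : L) < 1 := fun x => by
    rw [hP, Ideal.mem_comap]
    exact V.valuation_lt_one_iff _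
  have hmemgP : ∀ (g : G) (x : coreRing G V), x ∈ g • P ↔ V.valuation (g⁻¹ • (x : L)) < 1 :=
    fun g x => by
      rw [Ideal.mem_pointwise_smul_iff_inv_smul_mem, hmemP]
      rfl
  have : P.IsPrime := Ideal.comap_isPrime _ _
  have hB : ∀ g : G, ∀ x : coreRing G V, (∀ b ∈ B, b • x = x) → (x ∈ g • P ↔ x ∈ P) := by
    intro g x hx
    have hx' : ∀ β ∈ B, β • (x : L) = x := fun β hβ => congrArg Subtype.val (hx β hβ)
    rw [hmemgP, hmemP]
    constructor
    · intro h1
      by_contra h2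
      have hxV : V.valuation (x : L) ≤ 1 := (V.valuation_le_one_iff _).mpr (coreRing_le x.2)
      have hx1 : V.valuation (x : L) = 1 := le_antisymm hxV (not_lt.mp h2)
      have hx0 : (x : L) ≠ 0 := by
        intro h0
        rw [h0, map_zero] at hx1
        exact zero_ne_one hx1
      have hinv : ∀ β ∈ B, β • (x : L)⁻¹ = (x : L)⁻¹ := fun β hβ => by
        rw [smul_inv'', hx' β hβ]
      have h3 := key (x : L)⁻¹ hinv g⁻¹
      rw [smul_inv'', map_inv₀, map_inv₀, hx1, inv_one] at h3
      have hgx0 : g⁻¹ • (x : L) ≠ 0 := by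
        rwa [Ne, smul_eq_zero_iff_eq]
      have hpos : 0 < V.valuation (g⁻¹ • (x : L)) :=
        zero_lt_iff.mpr ((Valuation.ne_zero_iff _).mpr hgx0)
      have h4 : 1 ≤ V.valuation (g⁻¹ • (x : L)) := (inv_le_one₀ hpos).mp h3
      exact absurd h1 (not_lt.mpr h4)
    · intro h1
      exact lt_of_le_of_lt (key (x : L) hx' g⁻¹) h1
  have htP : t • P = P := by
    ext x
    rw [hmemgP, hmemP]
    by_cases hx0 : (x : L) = 0
    · rw [hx0, smul_zero]
    have hy0 : t⁻¹ • (x : L) ≠ 0 := by rwa [Ne, smul_eq_zero_iff_eq]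
    rw [valuation_lt_one_iff_inv_notMem hy0, valuation_lt_one_iff_inv_notMem hx0,
      ← htV (t⁻¹ • (x : L))⁻¹, smul_inv'', smul_inv_smul]
  have hall := smul_ideal_eq_of_unipotent P B t htn htP hB hgen
  -- the discrete trick
  by_cases hy0 : y = 0
  · rw [hy0, smul_zero]
  have hgy0 : ∀ h : G, h • y ≠ 0 := fun h => by rwa [Ne, smul_eq_zero_iff_eq]
  choose n hn using fun h : G => hV.disc (h • y) (hgy0 h)
  obtain ⟨h₀, -, hmin⟩ := Finset.exists_min_image Finset.univ n ⟨1, Finset.mem_univ 1⟩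
  set m := n h₀ with hm
  set z : L := y * w ^ (-m) with hz
  have hvz : ∀ h : G, V.valuation (h • z) = V.valuation w ^ (n h - m) := by
    intro h
    rw [hz, smul_mul', smul_zpow_of_fixed (hwfix h), map_mul, hn h, map_zpow₀,
      ← zpow_add₀ hV.w_pos.ne', sub_eq_add_neg]
  have hzcore : z ∈ coreRing G V := by
    intro h
    rw [← V.valuation_le_one_iff, hvz]
    apply (zpow_le_one_iff_right_of_lt_one₀ hV.w_pos hV.w_lt).mpr
    have := hmin h (Finset.mem_univ h)
    omega
  have hnh : ∀ h : G, n h = m := by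
    intro h
    set z' : coreRing G V := h₀ • ⟨z, hzcore⟩ with hz'
    have hz'coe : (z' : L) = h₀ • z := rfl
    have hz'P : z' ∉ P := by
      rw [hmemP, hz'coe, hvz, sub_self, zpow_zero]
      exact lt_irrefl _
    have h1 : z' ∉ (h * h₀⁻¹)⁻¹ • P := by rwa [hall]
    rw [hmemgP, inv_inv, hz'coe, smul_smul, inv_mul_cancel_right, hvz] at h1
    have h2 : V.valuation w ^ (n h - m) ≤ 1 := by
      rw [← hvz]
      exact (V.valuation_le_one_iff _).mpr (hzcore h)
    have h3 : V.valuation w ^ (n h - m) = V.valuation w ^ (0 : ℤ) := by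
      rw [zpow_zero]
      exact le_antisymm h2 (not_lt.mp h1)
    have h4 : n h - m = 0 := zpow_right_injective₀ hV.w_pos hV.w_lt.ne h3
    omega
  have h1 := hn g
  have h2 := hn 1
  rw [one_smul] at h2
  rw [h1, h2, hnh g, hnh 1]

/-- `V` is `G`-stable (same hypotheses as `valuation_smul_of_unipotent`). -/
theorem stable_of_unipotent (V : ValuationSubring L) (w : L) (A₀ : Subring L)
    (B : Subgroup G) (t : G) (hV : IsDiscrete V w)
    (hA_fix : ∀ a ∈ A₀, ∀ g : G, g • a = a)
    (hA_frac : ∀ y : L, (∀ g : G, g • y = y) → ∃ a ∈ A₀, ∃ s ∈ A₀, s ≠ 0 ∧ y * s = a)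
    (hA_le : A₀ ≤ V.toSubring) (hw_mem : w ∈ A₀)
    (htn : ∀ b ∈ B, b * t * b⁻¹ ∈ Subgroup.zpowers t)
    (hgen : Subgroup.normalClosure ({t} : Set G) = ⊤)
    (htV : ∀ y : L, t • y ∈ V ↔ y ∈ V)
    (hq0 : ∀ b : L, (∀ β ∈ B, β • b = b) → IsIntegral A₀ b → b * w⁻¹ ∈ V →
      IsIntegral A₀ (b * w⁻¹))
    (g : G) (y : L) : g • y ∈ V ↔ y ∈ V := by
  rw [← V.valuation_le_one_iff, ← V.valuation_le_one_iff,
    valuation_smul_of_unipotent V w A₀ B t hV hA_fix hA_frac hA_le hw_mem htn hgen htV hq0]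

end Valuation


/-! ## 4. The `q`-expansion principle -/

section QEP

open Polynomial

variable {L : Type*} [Field L] {G : Type*} [Group G] [Finite G] [MulSemiringAction G L]

theorem mem_of_mul_inv_pow_mem (V : ValuationSubring L) (w : L) (A₀ : Subring L)
    (hw_mem : w ∈ A₀) (hw_ne : w ≠ 0) (hA_le : A₀ ≤ V.toSubring)
    (hA_w : ∀ a ∈ A₀, a * w⁻¹ ∈ V → a * w⁻¹ ∈ A₀) :
    ∀ k : ℕ, ∀ a ∈ A₀, a * w⁻¹ ^ k ∈ V → a * w⁻¹ ^ k ∈ A₀ := by
  intro k
  induction k with
  | zero => intro a ha _; simpa using ha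
  | succ k ih =>
    intro a ha h
    have h1 : a * w⁻¹ ^ k = (a * w⁻¹ ^ (k + 1)) * w := by
      rw [pow_succ, mul_assoc, mul_assoc, inv_mul_cancel₀ hw_ne, mul_one]
    have h2 : a * w⁻¹ ^ k ∈ V := by
      rw [h1]
      exact V.mul_mem _ _ h (hA_le hw_mem)
    have h3 := ih a ha h2
    have h4 : a * w⁻¹ ^ (k + 1) = (a * w⁻¹ ^ k) * w⁻¹ := by rw [pow_succ]; ring
    rw [h4] at h ⊢
    exact hA_w _ h3 h

/-- coefficients of a product of monic linear factors with roots in a subring -/
theorem coeff_prod_X_sub_C_mem {ι : Type*} (s : Finset ι) (r : ι → L) (T : Subring L)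
    (hr : ∀ i ∈ s, r i ∈ T) (n : ℕ) : (∏ i ∈ s, (X - C (r i))).coeff n ∈ T := by
  have h : ∏ i ∈ s, (X - C (r i)) ∈ Polynomial.lifts T.subtype := by
    apply Subsemiring.prod_mem
    intro i hi
    have : (X - C (r i) : L[X]) = X + C (-(r i)) := by rw [C_neg, sub_eq_add_neg]
    rw [this]
    exact Subsemiring.add_mem _ (X_mem_lifts _) (C'_mem_lifts ⟨⟨-(r i), T.neg_mem (hr i hi)⟩, rfl⟩)
  rw [Polynomial.lifts_iff_coeff_lifts] at h
  obtain ⟨a, ha⟩ := h n
  rw [← ha]
  exact a.2

/-- **`q`-expansion principle from stability.**  If `V` is `G`-stable, `A₀` is integrally closed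
in `Lᴳ` and `A₀[1/w] ∩ V = A₀`, then `b` integral over `A₀`, `b/w ∈ V` ⟹ `b/w` integral. -/
theorem qep_of_stable (V : ValuationSubring L) (w : L) (A₀ : Subring L)
    (hA_fix : ∀ a ∈ A₀, ∀ g : G, g • a = a)
    (hA_ic : ∀ y : L, (∀ g : G, g • y = y) → IsIntegral A₀ y → y ∈ A₀)
    (hA_le : A₀ ≤ V.toSubring) (hw_mem : w ∈ A₀) (hw_ne : w ≠ 0)
    (hA_w : ∀ a ∈ A₀, a * w⁻¹ ∈ V → a * w⁻¹ ∈ A₀)
    (hstab : ∀ g : G, ∀ y ∈ V, g • y ∈ V)
    (b : L) (hb : IsIntegral A₀ b) (hbw : b * w⁻¹ ∈ V) : IsIntegral A₀ (b * w⁻¹) := by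
  classical
  cases nonempty_fintype G
  set y := b * w⁻¹ with hy
  have hwfix : ∀ g : G, g • w = w := fun g => hA_fix w hw_mem g
  have hgb : ∀ g : G, g • b = w * g • y := fun g => by
    rw [hy, smul_mul', smul_inv'', hwfix, mul_comm (g • b), ← mul_assoc, mul_inv_cancel₀ hw_ne,
      one_mul]
  set n := Fintype.card G with hn
  -- the scaling relation between the two characteristic polynomials
  have hrel : (MulSemiringAction.charpoly G b).comp (C w * X)
      = C (w ^ n) * MulSemiringAction.charpoly G y := by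
    rw [MulSemiringAction.charpoly_eq, MulSemiringAction.charpoly_eq, Polynomial.prod_comp]
    have h1 : ∀ g : G, (X - C (g • b)).comp (C w * X) = C w * (X - C (g • y)) := fun g => by
      rw [sub_comp, X_comp, C_comp, hgb g, C_mul]
      ring
    rw [Finset.prod_congr rfl (fun g _ => h1 g), Finset.prod_mul_distrib, Finset.prod_const,
      Finset.card_univ, ← C_pow]
  have hcoef : ∀ i : ℕ, (MulSemiringAction.charpoly G b).coeff i * w ^ i
      = w ^ n * (MulSemiringAction.charpoly G y).coeff i := fun i => by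
    have := congrArg (fun p => p.coeff i) hrel
    simp only [Polynomial.comp_C_mul_X_coeff, Polynomial.coeff_C_mul] at this
    exact this
  -- coefficients of `fb` lie in `A₀`
  have hfbA : ∀ i : ℕ, (MulSemiringAction.charpoly G b).coeff i ∈ A₀ := by
    intro i
    apply hA_ic _ (fun g => MulSemiringAction.smul_coeff_charpoly b i g)
    have h1 := coeff_prod_X_sub_C_mem (Finset.univ : Finset G) (fun g => g • b)
      (integralClosure A₀ L).toSubring (fun g _ => isIntegral_smul hA_fix hb g) i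
    exact h1
  -- coefficients of `fy` lie in `V`
  have hfyV : ∀ i : ℕ, (MulSemiringAction.charpoly G y).coeff i ∈ V := by
    intro i
    exact coeff_prod_X_sub_C_mem (Finset.univ : Finset G) (fun g => g • y)
      V.toSubring (fun g _ => hstab g y hbw) i
  have hpow := mem_of_mul_inv_pow_mem V w A₀ hw_mem hw_ne hA_le hA_w
  have hfyA : ∀ i : ℕ, (MulSemiringAction.charpoly G y).coeff i ∈ A₀ := by
    intro i
    by_cases hi : i ≤ n
    · have h1 : (MulSemiringAction.charpoly G y).coeff i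
          = (MulSemiringAction.charpoly G b).coeff i * w⁻¹ ^ (n - i) := by
        have h2 := hcoef i
        have hwn : w ^ n = w ^ (n - i) * w ^ i := by rw [← pow_add, Nat.sub_add_cancel hi]
        have hwi : w ^ i ≠ 0 := pow_ne_zero _ hw_ne
        have hwni : w ^ (n - i) ≠ 0 := pow_ne_zero _ hw_ne
        rw [hwn, mul_assoc, mul_comm (w ^ i), ← mul_assoc] at h2
        have h3 := mul_right_cancel₀ hwi h2
        rw [inv_pow, h3, mul_comm (w ^ (n - i)), mul_assoc, mul_inv_cancel₀ hwni, mul_one]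
      rw [h1]
      apply hpow _ _ (hfbA i)
      rw [← h1]
      exact hfyV i
    · have hdeg : (MulSemiringAction.charpoly G y).natDegree = n := by
        rw [MulSemiringAction.charpoly_eq, natDegree_prod_of_monic _ _ (fun g _ => monic_X_sub_C _)]
        simp [hn]
      rw [Polynomial.coeff_eq_zero_of_natDegree_lt (by omega)]
      exact A₀.zero_mem
  have hlift : MulSemiringAction.charpoly G y ∈ Polynomial.lifts (algebraMap A₀ L) := by
    rw [Polynomial.lifts_iff_coeff_lifts]
    intro i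
    exact ⟨⟨_, hfyA i⟩, rfl⟩
  obtain ⟨p, hp1, -, hp2⟩ := Polynomial.lifts_and_natDegree_eq_and_monic hlift
    (MulSemiringAction.monic_charpoly G y)
  exact ⟨p, hp2, by rw [← eval_map, hp1, MulSemiringAction.eval_charpoly]⟩

/-- **IGUSA1, abstract form.**  From the `q`-expansion principle for the invariants of `B`
(= Igusa's theorem for `X₀(M)`, landed S28) to the `q`-expansion principle for the whole
field `L` (full level), hence for every intermediate field (`Γ₁(M)`, ...). -/
theorem igusa_qep (V : ValuationSubring L) (w : L) (A₀ : Subring L)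
    (B : Subgroup G) (t : G) (hV : IsDiscrete V w)
    (hA_fix : ∀ a ∈ A₀, ∀ g : G, g • a = a)
    (hA_frac : ∀ y : L, (∀ g : G, g • y = y) → ∃ a ∈ A₀, ∃ s ∈ A₀, s ≠ 0 ∧ y * s = a)
    (hA_ic : ∀ y : L, (∀ g : G, g • y = y) → IsIntegral A₀ y → y ∈ A₀)
    (hA_le : A₀ ≤ V.toSubring) (hw_mem : w ∈ A₀)
    (hA_w : ∀ a ∈ A₀, a * w⁻¹ ∈ V → a * w⁻¹ ∈ A₀)
    (htn : ∀ b ∈ B, b * t * b⁻¹ ∈ Subgroup.zpowers t)
    (hgen : Subgroup.normalClosure ({t} : Set G) = ⊤)
    (htV : ∀ y : L, t • y ∈ V ↔ y ∈ V)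
    (hq0 : ∀ b : L, (∀ β ∈ B, β • b = b) → IsIntegral A₀ b → b * w⁻¹ ∈ V →
      IsIntegral A₀ (b * w⁻¹)) :
    ∀ b : L, IsIntegral A₀ b → b * w⁻¹ ∈ V → IsIntegral A₀ (b * w⁻¹) :=
  qep_of_stable V w A₀ hA_fix hA_ic hA_le hw_mem hV.w_ne hA_w
    (fun g y hy => (stable_of_unipotent V w A₀ B t hV hA_fix hA_frac hA_le hw_mem htn hgen htV
      hq0 g y).mpr hy)

end QEP

end Fermat.Agent.S48.H856
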