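import Fermat.Agent.S18.Alg.Spec
import Fermat.Agent.S48.H588.QepBase
import Fermat.Agent.S48.H856.IgusaAbs

/-!
# S48 / RES (Tower A1) / node IGUSA1 — the node theorem in the language of `S18/Alg/Spec`

`IgusaData` lists the CONCRETE obligations of node IGUSA1 (sub-objects of one field `Ω`, exactly
as in `Fermat.Agent.S18.Alg.GoodModel`):

* `Ffull`  the full-level field `E(X(M))` inside `Ω` (`X`-expansions, `X = q^{1/M}`),
* `F0`     the `Γ₀(M)`-field `E(j_d : d ∣ M)`, for which the `q`-expansion principle `qep0` is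
           known (Igusa for `X₀(M)` = landed S28, via S18 `node_mod`),
* `V`      the Gauss valuation ring, `w` the uniformiser of `R = A ∩ E`, `x = j`,
* `G`      a finite group of automorphisms of `Ω` preserving `Ffull` with `Ffull^G ⊆ E(x)`
           (image of `SL₂(ℤ)`), `B ≤ G` (image of `Γ₀(M)`, `Ffull^B ⊆ F0`), `t ∈ B` (image of
           `T`, acting by `X ↦ ζ X`, hence preserving `V`), whose `G`-conjugates generate `G`.

Results: `IgusaData.stable` (`V ∩ Ffull` is `G`-stable: the Gauss valuation extends uniquely) and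
`IgusaData.qep_fin` (the field `qep_fin` of `GoodModel` for EVERY intermediate field `Fc ≤ Ffull`,
e.g. the `Γ₁(M)`-field).  For `qep_inf` apply `H588.qep_of_unique_gauss` with `x⁻¹` and `stable`.
-/

set_option autoImplicit false

namespace Fermat.Agent.S48.H856

open Fermat.Agent.S18.Alg Polynomial

variable {Ω : Type*} [Field Ω]

/-- The concrete obligations of node IGUSA1 (see the module docstring). -/
structure IgusaData (Ec F0 Ffull : Subfield Ω) (R V : Subring Ω) (w x : Ω)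
    (G B : Subgroup (Ω ≃+* Ω)) (t : Ω ≃+* Ω) : Prop where
  -- `R` is a discrete valuation ring of `Ec` with uniformiser `w`
  R_le : ∀ r ∈ R, r ∈ Ec
  R_total : ∀ e ∈ Ec, e ∈ R ∨ e⁻¹ ∈ R
  w_mem : w ∈ R
  w_ne_zero : w ≠ 0
  w_inv_not_mem : w⁻¹ ∉ R
  w_discrete : ∀ r ∈ R, r ≠ 0 → ∃ n : ℕ, r * (w⁻¹) ^ n ∈ R ∧ (r * (w⁻¹) ^ n)⁻¹ ∈ R
  -- the fields
  E_le : Ec ≤ Ffull
  x_mem : x ∈ Ffull
  x_transcendental : Transcendental R x
  -- the Gauss valuation ring
  R_le_V : R ≤ V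
  x_mem_V : x ∈ V
  V_total : ∀ f ∈ Ffull, f ∈ V ∨ f⁻¹ ∈ V
  w_inv_not_mem_V : w⁻¹ ∉ V
  V_discrete : ∀ f ∈ Ffull, f ≠ 0 → ∃ n : ℤ, f * w ^ n ∈ V ∧ (f * w ^ n)⁻¹ ∈ V
  gauss : ∀ P : Polynomial Ω, (∀ i, P.coeff i ∈ R) → (∃ i, P.coeff i ≠ 0 ∧ (P.coeff i)⁻¹ ∈ R) →
    (P.eval x)⁻¹ ∈ V
  -- the group
  G_finite : Finite G
  G_fix_E : ∀ g ∈ G, ∀ a ∈ Ec, g a = a
  G_fix_x : ∀ g ∈ G, g x = x
  G_stable : ∀ g ∈ G, ∀ f ∈ Ffull, g f ∈ Ffull
  G_inv : ∀ f ∈ Ffull, (∀ g ∈ G, g f = f) → f ∈ ratField Ec x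
  -- the unipotent element and the Borel subgroup
  B_le : B ≤ G
  t_mem : t ∈ B
  t_normal : ∀ b ∈ B, b * t * b⁻¹ ∈ Subgroup.zpowers t
  t_gen : G ≤ Subgroup.closure {s | ∃ g ∈ G, s = g * t * g⁻¹}
  t_V : ∀ f ∈ Ffull, t f ∈ V ↔ f ∈ V
  -- level `Γ₀`: Igusa's theorem for `X₀(M)`
  B_inv : ∀ f ∈ Ffull, (∀ b ∈ B, b f = f) → f ∈ F0
  qep0 : ∀ b ∈ chart F0 R x, b * w⁻¹ ∈ V → b * w⁻¹ ∈ chart F0 R x

namespace IgusaData

variable {Ec F0 Ffull : Subfield Ω} {R V : Subring Ω} {w x : Ω}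
  {G B : Subgroup (Ω ≃+* Ω)} {t : Ω ≃+* Ω}

theorem fix_polyRing (h : IgusaData Ec F0 Ffull R V w x G B t) :
    ∀ g ∈ G, ∀ a ∈ polyRing R x, g a = a := by
  intro g hg a ha
  unfold polyRing at ha
  induction ha using Subring.closure_induction with
  | mem z hz =>
    rcases hz with hz | hz
    · exact h.G_fix_E g hg z (h.R_le z hz)
    · rw [Set.mem_singleton_iff] at hz
      rw [hz]; exact h.G_fix_x g hg
  | zero => simp
  | one => simp
  | add y z _ _ hy hz => rw [map_add, hy, hz]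
  | neg y _ hy => rw [map_neg, hy]
  | mul y z _ _ hy hz => rw [map_mul, hy, hz]

theorem polyRing_le_full (h : IgusaData Ec F0 Ffull R V w x G B t) :
    polyRing R x ≤ Ffull.toSubring := by
  unfold polyRing
  rw [Subring.closure_le]
  rintro z (hz | hz)
  · exact h.E_le (h.R_le z hz)
  · rw [Set.mem_singleton_iff] at hz
    rw [hz]; exact h.x_mem

theorem polyRing_le_V (h : IgusaData Ec F0 Ffull R V w x G B t) : polyRing R x ≤ V := by
  unfold polyRing
  rw [Subring.closure_le]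
  rintro z (hz | hz)
  · exact h.R_le_V hz
  · rw [Set.mem_singleton_iff] at hz
    rw [hz]; exact h.x_mem_V

/-- integrality over the pulled-back subring of the subfield `Ffull` -/
theorem isIntegral_comap_iff (Ffull : Subfield Ω) (T : Subring Ω) (hT : T ≤ Ffull.toSubring)
    (y : Ffull) :
    IsIntegral (T.comap Ffull.subtype) y ↔ IsIntegral T (y : Ω) := by
  rw [H588.isIntegral_subring_iff, H588.isIntegral_subring_iff]
  constructor
  · rintro ⟨p, hp, hc, hpy⟩
    refine ⟨p.map Ffull.subtype, hp.map _, fun i => ?_, ?_⟩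
    · rw [coeff_map]; exact hc i
    · have := congrArg Ffull.subtype hpy
      rwa [map_zero, ← eval₂_at_apply, ← eval_map] at this
  · rintro ⟨p, hp, hc, hpy⟩
    have hsub : (↑p.coeffs : Set Ω) ⊆ Ffull.toSubring := by
      intro c hc'
      obtain ⟨i, _, rfl⟩ := Polynomial.mem_coeffs_iff.mp (by exact_mod_cast hc')
      exact hT (hc i)
    refine ⟨p.toSubring Ffull.toSubring hsub, (p.monic_toSubring _ _).mpr hp, fun i => ?_, ?_⟩
    · show ((p.toSubring Ffull.toSubring hsub).coeff i : Ω) ∈ T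
      rw [Polynomial.coeff_toSubring]
      exact hc i
    · apply Subtype.ext
      have h1 : ((p.toSubring Ffull.toSubring hsub).map Ffull.toSubring.subtype).eval (y : Ω)
          = 0 := by
        rw [p.map_toSubring Ffull.toSubring hsub]; exact hpy
      rw [eval_map] at h1
      have h2 := Polynomial.eval₂_at_apply (p := p.toSubring Ffull.toSubring hsub)
        Ffull.subtype y
      exact h2.symm.trans h1


theorem ratField_le_closure (h : IgusaData Ec F0 Ffull R V w x G B t) :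
    ratField Ec x ≤ Subfield.closure ((R : Set Ω) ∪ {x}) := by
  unfold ratField
  rw [Subfield.closure_le]
  rintro z (hz | hz)
  · rcases h.R_total z hz with h1 | h1
    · exact Subfield.subset_closure (Or.inl h1)
    · have : z⁻¹ ∈ Subfield.closure ((R : Set Ω) ∪ {x}) :=
        Subfield.subset_closure (Or.inl h1)
      have h2 := (Subfield.closure ((R : Set Ω) ∪ {x})).inv_mem this
      rwa [inv_inv] at h2
  · exact Subfield.subset_closure (Or.inr hz)

/-- **Unique extension of the Gauss valuation to the full-level field**: `V ∩ Ffull` is stable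
under `G`. -/
theorem stable (h : IgusaData Ec F0 Ffull R V w x G B t) :
    ∀ g ∈ G, ∀ f ∈ Ffull, f ∈ V → g f ∈ V := by
  classical
  have := h.G_finite
  let act : MulSemiringAction G Ffull :=
    { smul := fun g f => ⟨(g : Ω ≃+* Ω) f, h.G_stable g g.2 f f.2⟩
      one_smul := fun f => Subtype.ext rfl
      mul_smul := fun g g' f => Subtype.ext rfl
      smul_zero := fun g => Subtype.ext (map_zero _)
      smul_add := fun g a b => Subtype.ext (map_add _ _ _)
      smul_one := fun g => Subtype.ext (map_one _)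
      smul_mul := fun g a b => Subtype.ext (map_mul _ _ _) }
  have hsmul : ∀ (g : G) (f : Ffull), ((g • f : Ffull) : Ω) = (g : Ω ≃+* Ω) f := fun _ _ => rfl
  let 𝒱 : ValuationSubring Ffull :=
    { V.comap Ffull.subtype with
      mem_or_inv_mem' := fun f => by
        rcases h.V_total f f.2 with h1 | h1
        · exact Or.inl h1
        · exact Or.inr h1 }
  have hmem𝒱 : ∀ f : Ffull, f ∈ 𝒱 ↔ (f : Ω) ∈ V := fun f => Iff.rfl
  let A₀ : Subring Ffull := (polyRing R x).comap Ffull.subtype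
  have hmemA : ∀ f : Ffull, f ∈ A₀ ↔ (f : Ω) ∈ polyRing R x := fun f => Iff.rfl
  let w' : Ffull := ⟨w, h.E_le (h.R_le w h.w_mem)⟩
  let t' : G := ⟨t, h.B_le h.t_mem⟩
  let B' : Subgroup G := B.subgroupOf G
  have hw'0 : w' ≠ 0 := fun h0 => h.w_ne_zero (congrArg Subtype.val h0)
  -- (1) discreteness
  have hV : IsDiscrete 𝒱 w' := by
    refine ⟨(valuation_lt_one_iff_inv_notMem hw'0).mpr ?_, hw'0, ?_⟩
    · intro hmem
      exact h.w_inv_not_mem_V ((hmem𝒱 _).mp hmem)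
    · intro y hy
      have hy0 : (y : Ω) ≠ 0 := fun h0 => hy (Subtype.ext h0)
      obtain ⟨n, hn1, hn2⟩ := h.V_discrete y y.2 hy0
      have hcoe : ((y * w' ^ n : Ffull) : Ω) = (y : Ω) * w ^ n := by
        have : ((w' ^ n : Ffull) : Ω) = w ^ n := map_zpow₀ Ffull.subtype w' n
        rw [Subfield.coe_mul, this]
      have h1 : y * w' ^ n ∈ 𝒱 := by rw [hmem𝒱, hcoe]; exact hn1
      have h2 : (y * w' ^ n)⁻¹ ∈ 𝒱 := by
        rw [hmem𝒱, Subfield.coe_inv, hcoe]; exact hn2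
      have h3 : 𝒱.valuation (y * w' ^ n) ≤ 1 := (𝒱.valuation_le_one_iff _).mpr h1
      have h4 : 𝒱.valuation (y * w' ^ n)⁻¹ ≤ 1 := (𝒱.valuation_le_one_iff _).mpr h2
      have hne : y * w' ^ n ≠ 0 := mul_ne_zero hy (zpow_ne_zero _ hw'0)
      have hpos : 0 < 𝒱.valuation (y * w' ^ n) :=
        zero_lt_iff.mpr ((Valuation.ne_zero_iff _).mpr hne)
      rw [map_inv₀] at h4
      have h5 : 1 ≤ 𝒱.valuation (y * w' ^ n) := (inv_le_one₀ hpos).mp h4
      have h6 : 𝒱.valuation (y * w' ^ n) = 1 := le_antisymm h3 h5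
      rw [map_mul, map_zpow₀] at h6
      refine ⟨-n, ?_⟩
      rw [zpow_neg]
      exact eq_inv_of_mul_eq_one_left h6
  -- (2) the base ring
  have hA_fix : ∀ a ∈ A₀, ∀ g : G, g • a = a := fun a ha g =>
    Subtype.ext (h.fix_polyRing g g.2 a ha)
  have hA_frac : ∀ y : Ffull, (∀ g : G, g • y = y) →
      ∃ a ∈ A₀, ∃ s ∈ A₀, s ≠ 0 ∧ y * s = a := by
    intro y hy
    have hy' : (y : Ω) ∈ ratField Ec x :=
      h.G_inv y y.2 (fun g hg => congrArg Subtype.val (hy ⟨g, hg⟩))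
    obtain ⟨a, ha, b, hb, hab⟩ := Subfield.mem_closure_iff.1 (h.ratField_le_closure hy')
    have haF : a ∈ Ffull := h.polyRing_le_full ha
    have hbF : b ∈ Ffull := h.polyRing_le_full hb
    by_cases hb0 : b = 0
    · refine ⟨0, A₀.zero_mem, 1, A₀.one_mem, one_ne_zero, ?_⟩
      apply Subtype.ext
      rw [hb0, div_zero] at hab
      simp [← hab]
    · refine ⟨⟨a, haF⟩, ha, ⟨b, hbF⟩, hb, fun h0 => hb0 (congrArg Subtype.val h0), ?_⟩
      apply Subtype.ext
      show (y : Ω) * b = a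
      rw [← hab, div_mul_cancel₀ _ hb0]
  have hA_le : A₀ ≤ 𝒱.toSubring := fun a ha => h.polyRing_le_V ha
  have hw_mem : w' ∈ A₀ := Subring.subset_closure (Or.inl h.w_mem)
  -- (3) the group
  have htn : ∀ b ∈ B', b * t' * b⁻¹ ∈ Subgroup.zpowers t' := by
    intro b hb
    have hb' : (b : Ω ≃+* Ω) ∈ B := Subgroup.mem_subgroupOf.mp hb
    obtain ⟨k, hk⟩ := Subgroup.mem_zpowers_iff.mp (h.t_normal b hb')
    refine Subgroup.mem_zpowers_iff.mpr ⟨k, ?_⟩
    apply Subtype.ext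
    rw [Subgroup.coe_zpow]
    exact hk
  have hgen : Subgroup.normalClosure ({t'} : Set G) = ⊤ := by
    rw [eq_top_iff]
    intro g _
    have hg := h.t_gen g.2
    have hP : ∀ s (hs : s ∈ Subgroup.closure {s | ∃ g ∈ G, s = g * t * g⁻¹}),
        ∃ hsG : s ∈ G, (⟨s, hsG⟩ : G) ∈ Subgroup.normalClosure ({t'} : Set G) := by
      intro s hs
      induction hs using Subgroup.closure_induction with
      | mem z hz =>
        obtain ⟨g₁, hg₁, rfl⟩ := hz
        refine ⟨G.mul_mem (G.mul_mem hg₁ (h.B_le h.t_mem)) (G.inv_mem hg₁), ?_⟩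
        have hn : (Subgroup.normalClosure ({t'} : Set G)).Normal :=
          Subgroup.normalClosure_normal
        have := hn.conj_mem t' (Subgroup.subset_normalClosure (Set.mem_singleton t'))
          ⟨g₁, hg₁⟩
        exact this
      | one => exact ⟨G.one_mem, Subgroup.one_mem _⟩
      | mul y z _ _ hy hz =>
        obtain ⟨hy1, hy2⟩ := hy
        obtain ⟨hz1, hz2⟩ := hz
        exact ⟨G.mul_mem hy1 hz1, Subgroup.mul_mem _ hy2 hz2⟩
      | inv y _ hy =>
        obtain ⟨hy1, hy2⟩ := hy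
        exact ⟨G.inv_mem hy1, Subgroup.inv_mem _ hy2⟩
    obtain ⟨_, h2⟩ := hP g hg
    exact h2
  have htV : ∀ y : Ffull, t' • y ∈ 𝒱 ↔ y ∈ 𝒱 := fun y => h.t_V y y.2
  -- (4) Igusa for `X₀(M)`
  have hq0 : ∀ b : Ffull, (∀ β ∈ B', β • b = b) → IsIntegral A₀ b → b * w'⁻¹ ∈ 𝒱 →
      IsIntegral A₀ (b * w'⁻¹) := by
    intro b hbB hbint hbV
    have hbF0 : (b : Ω) ∈ F0 := h.B_inv b b.2 (fun β hβ =>
      congrArg Subtype.val (hbB ⟨β, h.B_le hβ⟩ (Subgroup.mem_subgroupOf.mpr hβ)))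
    have hbint' : IsIntegral (polyRing R x) (b : Ω) :=
      (isIntegral_comap_iff Ffull _ h.polyRing_le_full b).mp hbint
    have hbV' : (b : Ω) * w⁻¹ ∈ V := hbV
    have h1 := h.qep0 (b : Ω) ⟨hbF0, hbint'⟩ hbV'
    exact (isIntegral_comap_iff Ffull _ h.polyRing_le_full (b * w'⁻¹)).mpr h1.2
  have key := stable_of_unipotent 𝒱 w' A₀ B' t' hV hA_fix hA_frac hA_le hw_mem htn hgen htV hq0
  intro g hg f hf hfV
  exact (key ⟨g, hg⟩ ⟨f, hf⟩).mpr hfV

/-- **Node IGUSA1.**  The `q`-expansion principle (`GoodModel.qep_fin`) for every intermediate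
field `Fc ≤ Ffull`, in particular for the `Γ₁(M)`-field. -/
theorem qep_fin (h : IgusaData Ec F0 Ffull R V w x G B t) (Fc : Subfield Ω) (hFc : Fc ≤ Ffull)
    (hwFc : w ∈ Fc) :
    ∀ b ∈ chart Fc R x, b * w⁻¹ ∈ V → b * w⁻¹ ∈ chart Fc R x := by
  have := h.G_finite
  intro b hb hbV
  have hbF : b * w⁻¹ ∈ Ffull := Ffull.mul_mem (hFc hb.1) (Ffull.inv_mem (hFc hwFc))
  have hRF : R ≤ Ffull.toSubring := fun r hr => h.E_le (h.R_le r hr)
  refine H588.qep_of_unique_gauss Ec Fc Ffull R (V ⊓ Ffull.toSubring) h.R_le h.R_total h.w_mem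
    h.w_ne_zero h.w_inv_not_mem h.w_discrete h.x_transcendental hFc hwFc
    (le_inf h.R_le_V hRF) (fun hmem => h.w_inv_not_mem_V hmem.1) ?_ G h.G_fix_E h.G_fix_x
    h.G_stable ?_ h.G_inv b hb ⟨hbV, hbF⟩
  · intro P hP hP'
    refine ⟨h.gauss P hP hP', Ffull.inv_mem ?_⟩
    rw [Polynomial.eval_eq_sum_range]
    exact Ffull.sum_mem fun i _ => Ffull.mul_mem (hRF (hP i)) (Ffull.pow_mem h.x_mem i)
  · intro g hg f hf
    exact ⟨h.stable g hg f hf.2 hf.1, h.G_stable g hg f hf.2⟩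

end IgusaData

end Fermat.Agent.S48.H856
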