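import Fermat.Agent.S48.H856.IgusaAbs

/-!
# S48 / RES / IGUSA1, leaves I-V and I-TV: the Gauss valuation ring of a field of Laurent series
(helper856, Mathlib-only)

`K` a field with a discrete valuation subring `𝒪` (uniformiser `w₀`), `L` a field with an
expansion map `ex : L →+* K((X))`.  `gaussRing 𝒪 ex` = `{U₁/U₂ : ex U₁ integral, ex U₂ primitive}`.
`HasBd f` : `f` is a quotient of elements with bounded denominators (automatic on a subfield
generated by elements with integral expansions, `hasBd_of_mem_closure`).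

* `IsPrim.mul`                    : Gauss' lemma for Laurent series;
* `GaussHyp.total`, `w_inv_notMem`, `discrete` : on elements with `HasBd`, `gaussRing` is a
  discrete valuation ring with uniformiser `w`;
* `mem_gaussRing_of_isInt`, `GaussHyp.gauss_inv_mem` : the fields `R_le_V`, `x_mem_V`, `gauss`;
* `smul_mem_gaussRing_iff`        : an automorphism acting on expansions by `X ↦ ζ X`
  (`ζ` a unit of `𝒪`) preserves `gaussRing` (field `t_V` of `IgusaData`).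
-/

set_option autoImplicit false

open HahnSeries

namespace Fermat.Agent.S48.H856

section Series

variable {K : Type*} [Field K] (𝒪 : ValuationSubring K)

/-- all coefficients lie in `𝒪` -/
def IsInt (s : LaurentSeries K) : Prop := ∀ k, s.coeff k ∈ 𝒪

/-- integral, with a unit coefficient -/
def IsPrim (s : LaurentSeries K) : Prop := IsInt 𝒪 s ∧ ∃ k, 𝒪.valuation (s.coeff k) = 1

variable {𝒪}

theorem isInt_iff {s : LaurentSeries K} : IsInt 𝒪 s ↔ ∀ k, 𝒪.valuation (s.coeff k) ≤ 1 :=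
  forall_congr' fun _ => (𝒪.valuation_le_one_iff _).symm

theorem isInt_zero : IsInt 𝒪 (0 : LaurentSeries K) := fun _ => by
  rw [HahnSeries.coeff_zero]; exact 𝒪.zero_mem

theorem coeff_C_eq (c : K) (k : ℤ) :
    (HahnSeries.C c : LaurentSeries K).coeff k = if k = 0 then c else 0 := by
  rw [HahnSeries.C_apply, HahnSeries.coeff_single]
  split_ifs <;> rfl

theorem isInt_C {c : K} (hc : c ∈ 𝒪) : IsInt 𝒪 (HahnSeries.C c : LaurentSeries K) := fun k => by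
  rw [coeff_C_eq]
  split_ifs
  · exact hc
  · exact 𝒪.zero_mem

theorem isInt_one : IsInt 𝒪 (1 : LaurentSeries K) := by
  have : (1 : LaurentSeries K) = HahnSeries.C 1 := (map_one _).symm
  rw [this]
  exact isInt_C 𝒪.one_mem

theorem isPrim_one : IsPrim 𝒪 (1 : LaurentSeries K) := by
  refine ⟨isInt_one, 0, ?_⟩
  have : (1 : LaurentSeries K) = HahnSeries.C 1 := (map_one _).symm
  rw [this, coeff_C_eq, if_pos rfl, map_one]

theorem IsInt.add {s s' : LaurentSeries K} (h : IsInt 𝒪 s) (h' : IsInt 𝒪 s') :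
    IsInt 𝒪 (s + s') := fun k => by
  rw [HahnSeries.coeff_add]; exact 𝒪.add_mem _ _ (h k) (h' k)

theorem IsInt.neg {s : LaurentSeries K} (h : IsInt 𝒪 s) : IsInt 𝒪 (-s) := fun k => by
  rw [HahnSeries.coeff_neg]; exact 𝒪.neg_mem _ (h k)

theorem IsInt.mul {s s' : LaurentSeries K} (h : IsInt 𝒪 s) (h' : IsInt 𝒪 s') :
    IsInt 𝒪 (s * s') := fun k => by
  rw [HahnSeries.coeff_mul]
  exact 𝒪.toSubring.sum_mem fun ij _ => 𝒪.mul_mem _ _ (h _) (h' _)

theorem IsInt.pow {s : LaurentSeries K} (h : IsInt 𝒪 s) (n : ℕ) : IsInt 𝒪 (s ^ n) := by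
  induction n with
  | zero => rw [pow_zero]; exact isInt_one
  | succ n ih => rw [pow_succ]; exact ih.mul h

theorem IsPrim.ne_zero {s : LaurentSeries K} (h : IsPrim 𝒪 s) : s ≠ 0 := by
  rintro rfl
  obtain ⟨k, hk⟩ := h.2
  rw [HahnSeries.coeff_zero, map_zero] at hk
  exact zero_ne_one hk

theorem coeff_C_mul_eq (c : K) (s : LaurentSeries K) (k : ℤ) :
    (HahnSeries.C c * s).coeff k = c * s.coeff k := by
  rw [HahnSeries.C_mul_eq_smul, HahnSeries.coeff_smul, smul_eq_mul]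

theorem coeff_mul_C_eq (c : K) (s : LaurentSeries K) (k : ℤ) :
    (s * HahnSeries.C c).coeff k = s.coeff k * c := by
  rw [mul_comm, coeff_C_mul_eq, mul_comm]

/-- **Gauss' lemma** for Laurent series over a valuation ring. -/
theorem IsPrim.mul {f g : LaurentSeries K} (hf : IsPrim 𝒪 f) (hg : IsPrim 𝒪 g) :
    IsPrim 𝒪 (f * g) := by
  classical
  refine ⟨hf.1.mul hg.1, ?_⟩
  set v := 𝒪.valuation with hv
  -- least indices with unit coefficients
  have hSf : {k | v (f.coeff k) = 1} ⊆ f.support := fun k hk => by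
    rw [HahnSeries.mem_support]
    intro h0
    have hk' : v (f.coeff k) = 1 := hk
    rw [h0, map_zero] at hk'
    exact zero_ne_one hk'
  have hSg : {k | v (g.coeff k) = 1} ⊆ g.support := fun k hk => by
    rw [HahnSeries.mem_support]
    intro h0
    have hk' : v (g.coeff k) = 1 := hk
    rw [h0, map_zero] at hk'
    exact zero_ne_one hk'
  have hwf : {k | v (f.coeff k) = 1}.IsWF := f.isWF_support.mono hSf
  have hwg : {k | v (g.coeff k) = 1}.IsWF := g.isWF_support.mono hSg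
  have hnf : {k | v (f.coeff k) = 1}.Nonempty := hf.2
  have hng : {k | v (g.coeff k) = 1}.Nonempty := hg.2
  set i₀ := hwf.min hnf with hi₀
  set j₀ := hwg.min hng with hj₀
  have hi₀1 : v (f.coeff i₀) = 1 := hwf.min_mem hnf
  have hj₀1 : v (g.coeff j₀) = 1 := hwg.min_mem hng
  have hflt : ∀ i, i < i₀ → v (f.coeff i) < 1 := fun i hi => by
    refine lt_of_le_of_ne ((𝒪.valuation_le_one_iff _).mpr (hf.1 i)) fun h1 => ?_
    exact hwf.not_lt_min hnf h1 hi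
  have hglt : ∀ j, j < j₀ → v (g.coeff j) < 1 := fun j hj => by
    refine lt_of_le_of_ne ((𝒪.valuation_le_one_iff _).mpr (hg.1 j)) fun h1 => ?_
    exact hwg.not_lt_min hng h1 hj
  refine ⟨i₀ + j₀, ?_⟩
  rw [HahnSeries.coeff_mul]
  have hmem : (i₀, j₀) ∈ Finset.antidiagonal f.isPWO_support g.isPWO_support (i₀ + j₀) := by
    rw [Finset.mem_antidiagonal]
    exact ⟨hSf hi₀1, hSg hj₀1, rfl⟩
  rw [← Finset.add_sum_erase _ _ hmem]
  have hrest : v (∑ ij ∈ (Finset.antidiagonal f.isPWO_support g.isPWO_support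
      (i₀ + j₀)).erase (i₀, j₀), f.coeff ij.1 * g.coeff ij.2) < 1 := by
    apply Valuation.map_sum_lt v one_ne_zero
    rintro ⟨i, j⟩ hij
    rw [Finset.mem_erase, Finset.mem_antidiagonal] at hij
    obtain ⟨hne, -, -, hsum⟩ := hij
    simp only at hsum
    rw [map_mul]
    have hfi : v (f.coeff i) ≤ 1 := (𝒪.valuation_le_one_iff _).mpr (hf.1 i)
    have hgj : v (g.coeff j) ≤ 1 := (𝒪.valuation_le_one_iff _).mpr (hg.1 j)
    rcases lt_or_ge i i₀ with hi | hi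
    · exact mul_lt_one_of_lt_of_le (hflt i hi) hgj
    · have hj : j < j₀ := by
        rcases lt_or_ge j j₀ with hj | hj
        · exact hj
        · exfalso
          apply hne
          have h1 : i = i₀ := by omega
          have h2 : j = j₀ := by omega
          rw [h1, h2]
      rw [mul_comm]
      exact mul_lt_one_of_lt_of_le (hglt j hj) hfi
  have h1 : v (f.coeff i₀ * g.coeff j₀) = 1 := by rw [map_mul, hi₀1, hj₀1, mul_one]
  rw [Valuation.map_add_eq_of_lt_left v (by rw [h1]; exact hrest), h1]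

end Series

section Field

variable {K : Type*} [Field K] (𝒪 : ValuationSubring K) {L : Type*} [Field L]
  (ex : L →+* LaurentSeries K)

/-- The Gauss valuation ring of `L`: quotients `U₁/U₂` with `ex U₁` integral and `ex U₂`
primitive. -/
def gaussRing : Subring L where
  carrier := {f | ∃ U₁ U₂ : L, IsInt 𝒪 (ex U₁) ∧ IsPrim 𝒪 (ex U₂) ∧ f * U₂ = U₁}
  zero_mem' := ⟨0, 1, by rw [map_zero]; exact isInt_zero, by rw [map_one]; exact isPrim_one,
    by simp⟩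
  one_mem' := ⟨1, 1, by rw [map_one]; exact isInt_one, by rw [map_one]; exact isPrim_one,
    by simp⟩
  add_mem' := by
    rintro f g ⟨U₁, U₂, h1, h2, h3⟩ ⟨U₁', U₂', h1', h2', h3'⟩
    refine ⟨U₁ * U₂' + U₁' * U₂, U₂ * U₂', ?_, ?_, ?_⟩
    · rw [map_add, map_mul, map_mul]; exact (h1.mul h2'.1).add (h1'.mul h2.1)
    · rw [map_mul]; exact h2.mul h2'
    · rw [← h3, ← h3']; ring
  mul_mem' := by
    rintro f g ⟨U₁, U₂, h1, h2, h3⟩ ⟨U₁', U₂', h1', h2', h3'⟩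
    refine ⟨U₁ * U₁', U₂ * U₂', ?_, ?_, ?_⟩
    · rw [map_mul]; exact h1.mul h1'
    · rw [map_mul]; exact h2.mul h2'
    · rw [← h3, ← h3']; ring
  neg_mem' := by
    rintro f ⟨U₁, U₂, h1, h2, h3⟩
    exact ⟨-U₁, U₂, by rw [map_neg]; exact h1.neg, h2, by rw [← h3]; ring⟩

variable {𝒪 ex}

theorem mem_gaussRing {f : L} : f ∈ gaussRing 𝒪 ex ↔
    ∃ U₁ U₂ : L, IsInt 𝒪 (ex U₁) ∧ IsPrim 𝒪 (ex U₂) ∧ f * U₂ = U₁ := Iff.rfl

/-- fields `R_le_V`, `x_mem_V`: an element with integral expansion lies in the Gauss ring -/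
theorem mem_gaussRing_of_isInt {f : L} (h : IsInt 𝒪 (ex f)) : f ∈ gaussRing 𝒪 ex :=
  ⟨f, 1, h, by rw [map_one]; exact isPrim_one, mul_one f⟩

theorem ne_zero_of_isPrim {f : L} (h : IsPrim 𝒪 (ex f)) : f ≠ 0 := by
  rintro rfl
  exact h.ne_zero (map_zero ex)

theorem inv_mem_gaussRing_of_isPrim {f : L} (h : IsPrim 𝒪 (ex f)) : f⁻¹ ∈ gaussRing 𝒪 ex :=
  ⟨1, f, by rw [map_one]; exact isInt_one, h, inv_mul_cancel₀ (ne_zero_of_isPrim h)⟩

variable (𝒪 ex)

/-- The hypotheses: `𝒪` is discrete with uniformiser `w₀` and `w ∈ L` is the constant `w₀`. -/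
structure GaussHyp (w₀ : K) (w : L) : Prop where
  disc : IsDiscrete 𝒪 w₀
  ex_w : ex w = HahnSeries.C w₀

/-- `U` has an expansion with bounded denominators -/
def IsBd (w : L) (U : L) : Prop := ∃ n : ℕ, IsInt 𝒪 (ex (U * w ^ n))

/-- `f` is a quotient of elements with bounded denominators (true for every element of a field
generated by elements with integral expansions, `hasBd_of_mem_closure`) -/
def HasBd (w : L) (f : L) : Prop :=
  ∃ U₁ U₂ : L, U₂ ≠ 0 ∧ IsBd 𝒪 ex w U₁ ∧ IsBd 𝒪 ex w U₂ ∧ f * U₂ = U₁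

variable {𝒪 ex} {w₀ : K} {w : L}

namespace GaussHyp

theorem w_ne_zero (h : GaussHyp 𝒪 ex w₀ w) : w ≠ 0 := by
  rintro rfl
  have h1 := h.ex_w
  rw [map_zero] at h1
  have h2 : (HahnSeries.C w₀ : LaurentSeries K) = HahnSeries.C 0 := by rw [← h1, map_zero]
  exact h.disc.w_ne (HahnSeries.C_injective h2)

theorem coeff_mul_zpow (h : GaussHyp 𝒪 ex w₀ w) (U : L) (a : ℤ) (k : ℤ) :
    (ex (U * w ^ a)).coeff k = (ex U).coeff k * w₀ ^ a := by
  rw [map_mul, map_zpow₀, h.ex_w, ← map_zpow₀, coeff_mul_C_eq]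

theorem isInt_mul_zpow (h : GaussHyp 𝒪 ex w₀ w) {U : L} (hU : IsInt 𝒪 (ex U)) {a : ℤ}
    (ha : 0 ≤ a) : IsInt 𝒪 (ex (U * w ^ a)) := by
  rw [isInt_iff]
  intro k
  rw [h.coeff_mul_zpow, map_mul, map_zpow₀]
  have h1 : 𝒪.valuation ((ex U).coeff k) ≤ 1 := (𝒪.valuation_le_one_iff _).mpr (hU k)
  have h2 : 𝒪.valuation w₀ ^ a ≤ 1 :=
    (zpow_le_one_iff_right_of_lt_one₀ h.disc.w_pos h.disc.w_lt).mpr ha
  calc 𝒪.valuation ((ex U).coeff k) * 𝒪.valuation w₀ ^ a ≤ 1 * 1 := by gcongr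
    _ = 1 := one_mul 1

/-- a nonzero element with bounded denominators is `w ^ (-a)` times a primitive one -/
theorem exists_prim_scale (h : GaussHyp 𝒪 ex w₀ w) {U : L} (hU : U ≠ 0)
    (hb : IsBd 𝒪 ex w U) : ∃ a : ℤ, IsPrim 𝒪 (ex (U * w ^ a)) := by
  obtain ⟨n, hn⟩ := hb
  have hexU : ex U ≠ 0 := fun h0 => hU ((map_eq_zero ex).mp h0)
  have hbdd : ∃ b : ℤ, ∀ z : ℤ, (∃ k, (ex U).coeff k ≠ 0 ∧
      𝒪.valuation ((ex U).coeff k) = 𝒪.valuation w₀ ^ z) → b ≤ z := by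
    refine ⟨-n, ?_⟩
    rintro z ⟨k, -, hk⟩
    have h1 := (isInt_iff.mp hn) k
    rw [← zpow_natCast w n, h.coeff_mul_zpow, map_mul, map_zpow₀, hk,
      ← zpow_add₀ h.disc.w_pos.ne'] at h1
    have := (zpow_le_one_iff_right_of_lt_one₀ h.disc.w_pos h.disc.w_lt).mp h1
    omega
  have hex : ∃ z : ℤ, ∃ k, (ex U).coeff k ≠ 0 ∧
      𝒪.valuation ((ex U).coeff k) = 𝒪.valuation w₀ ^ z := by
    have : ∃ k, (ex U).coeff k ≠ 0 := by
      by_contra hcon
      push Not at hcon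
      exact hexU (HahnSeries.ext (funext fun k => by rw [hcon k, HahnSeries.coeff_zero]))
    obtain ⟨k, hk⟩ := this
    obtain ⟨z, hz⟩ := h.disc.disc _ hk
    exact ⟨z, k, hk, hz⟩
  obtain ⟨m, ⟨k₀, -, hk₀v⟩, hmin⟩ := Int.exists_least_of_bdd hbdd hex
  refine ⟨-m, ?_, k₀, ?_⟩
  · rw [isInt_iff]
    intro k
    rw [h.coeff_mul_zpow, map_mul, map_zpow₀]
    by_cases hk : (ex U).coeff k = 0
    · rw [hk, map_zero, zero_mul]; exact zero_le_one
    · obtain ⟨z, hz⟩ := h.disc.disc _ hk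
      have hmz := hmin z ⟨k, hk, hz⟩
      rw [hz, ← zpow_add₀ h.disc.w_pos.ne']
      apply (zpow_le_one_iff_right_of_lt_one₀ h.disc.w_pos h.disc.w_lt).mpr
      omega
  · rw [h.coeff_mul_zpow, map_mul, map_zpow₀, hk₀v, ← zpow_add₀ h.disc.w_pos.ne',
      add_neg_cancel, zpow_zero]

/-- every nonzero element of `L` is `w ^ n` times a quotient of primitive elements -/
theorem exists_prim_quot (h : GaussHyp 𝒪 ex w₀ w) {f : L} (hbd : HasBd 𝒪 ex w f)
    (hf : f ≠ 0) :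
    ∃ (n : ℤ) (P₁ P₂ : L), IsPrim 𝒪 (ex P₁) ∧ IsPrim 𝒪 (ex P₂) ∧ f * w ^ n * P₂ = P₁ := by
  obtain ⟨U₁, U₂, hU₂, hb₁, hb₂, hfU⟩ := hbd
  have hU₁ : U₁ ≠ 0 := by rw [← hfU]; exact mul_ne_zero hf hU₂
  obtain ⟨a₁, ha₁⟩ := h.exists_prim_scale hU₁ hb₁
  obtain ⟨a₂, ha₂⟩ := h.exists_prim_scale hU₂ hb₂
  refine ⟨a₁ - a₂, U₁ * w ^ a₁, U₂ * w ^ a₂, ha₁, ha₂, ?_⟩
  rw [← hfU, zpow_sub₀ h.w_ne_zero]
  have := zpow_ne_zero a₂ h.w_ne_zero
  field_simp

/-- field `V_discrete` -/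
theorem discrete (h : GaussHyp 𝒪 ex w₀ w) {f : L} (hbd : HasBd 𝒪 ex w f) (hf : f ≠ 0) :
    ∃ n : ℤ, f * w ^ n ∈ gaussRing 𝒪 ex ∧ (f * w ^ n)⁻¹ ∈ gaussRing 𝒪 ex := by
  obtain ⟨n, P₁, P₂, h1, h2, h3⟩ := h.exists_prim_quot hbd hf
  refine ⟨n, ⟨P₁, P₂, h1.1, h2, h3⟩, ⟨P₂, P₁, h2.1, h1, ?_⟩⟩
  have hfw : f * w ^ n ≠ 0 := mul_ne_zero hf (zpow_ne_zero _ h.w_ne_zero)
  rw [← h3, ← mul_assoc, inv_mul_cancel₀ hfw, one_mul]

/-- field `V_total` -/
theorem total (h : GaussHyp 𝒪 ex w₀ w) {f : L} (hbd : HasBd 𝒪 ex w f) :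
    f ∈ gaussRing 𝒪 ex ∨ f⁻¹ ∈ gaussRing 𝒪 ex := by
  by_cases hf : f = 0
  · left; rw [hf]; exact (gaussRing 𝒪 ex).zero_mem
  obtain ⟨n, h1, h2⟩ := h.discrete hbd hf
  have hwV : ∀ a : ℤ, 0 ≤ a → w ^ a ∈ gaussRing 𝒪 ex := fun a ha => by
    have := h.isInt_mul_zpow (U := 1) (by rw [map_one]; exact isInt_one) ha
    rw [one_mul] at this
    exact mem_gaussRing_of_isInt this
  rcases le_total n 0 with hn | hn
  · left
    have : f = f * w ^ n * w ^ (-n) := by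
      rw [mul_assoc, ← zpow_add₀ h.w_ne_zero, add_neg_cancel, zpow_zero, mul_one]
    rw [this]
    exact (gaussRing 𝒪 ex).mul_mem h1 (hwV _ (by omega))
  · right
    have : f⁻¹ = (f * w ^ n)⁻¹ * w ^ n := by
      rw [mul_inv, mul_assoc, inv_mul_cancel₀ (zpow_ne_zero _ h.w_ne_zero), mul_one]
    rw [this]
    exact (gaussRing 𝒪 ex).mul_mem h2 (hwV _ hn)

/-- field `w_inv_not_mem_V` -/
theorem w_inv_notMem (h : GaussHyp 𝒪 ex w₀ w) : w⁻¹ ∉ gaussRing 𝒪 ex := by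
  rintro ⟨U₁, U₂, h1, h2, h3⟩
  obtain ⟨k, hk⟩ := h2.2
  have hU₂ : U₂ = w * U₁ := by
    rw [← h3, ← mul_assoc, mul_inv_cancel₀ h.w_ne_zero, one_mul]
  rw [hU₂, map_mul, h.ex_w, coeff_C_mul_eq, map_mul] at hk
  have h4 : 𝒪.valuation ((ex U₁).coeff k) ≤ 1 := (𝒪.valuation_le_one_iff _).mpr (h1 k)
  have h5 : 𝒪.valuation w₀ * 𝒪.valuation ((ex U₁).coeff k) < 1 :=
    mul_lt_one_of_lt_of_le h.disc.w_lt h4
  rw [hk] at h5
  exact lt_irrefl _ h5

end GaussHyp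

/-! ### Bounded denominators are inherited by generated subfields -/

theorem isBd_of_isInt {w : L} {U : L} (h : IsInt 𝒪 (ex U)) : IsBd 𝒪 ex w U :=
  ⟨0, by rwa [pow_zero, mul_one]⟩

theorem IsBd.mono (h : GaussHyp 𝒪 ex w₀ w) {U : L} {n n' : ℕ} (hn : n ≤ n')
    (hU : IsInt 𝒪 (ex (U * w ^ n))) : IsInt 𝒪 (ex (U * w ^ n')) := by
  obtain ⟨d, rfl⟩ := Nat.exists_eq_add_of_le hn
  have h1 := h.isInt_mul_zpow hU (a := (d : ℤ)) (by omega)
  have h2 : U * w ^ (n + d) = U * w ^ n * w ^ (d : ℤ) := by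
    rw [zpow_natCast, _root_.pow_add, mul_assoc]
  rwa [h2]

theorem IsBd.add (h : GaussHyp 𝒪 ex w₀ w) {U U' : L} (hU : IsBd 𝒪 ex w U)
    (hU' : IsBd 𝒪 ex w U') : IsBd 𝒪 ex w (U + U') := by
  obtain ⟨n, hn⟩ := hU
  obtain ⟨n', hn'⟩ := hU'
  refine ⟨max n n', ?_⟩
  have h1 := IsBd.mono h (le_max_left n n') hn
  have h2 := IsBd.mono h (le_max_right n n') hn'
  rw [add_mul, map_add]
  exact h1.add h2

theorem IsBd.neg {w : L} {U : L} (hU : IsBd 𝒪 ex w U) : IsBd 𝒪 ex w (-U) := by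
  obtain ⟨n, hn⟩ := hU
  exact ⟨n, by rw [neg_mul, map_neg]; exact hn.neg⟩

theorem IsBd.mul {w : L} {U U' : L} (hU : IsBd 𝒪 ex w U) (hU' : IsBd 𝒪 ex w U') :
    IsBd 𝒪 ex w (U * U') := by
  obtain ⟨n, hn⟩ := hU
  obtain ⟨n', hn'⟩ := hU'
  refine ⟨n + n', ?_⟩
  have : U * U' * w ^ (n + n') = U * w ^ n * (U' * w ^ n') := by rw [_root_.pow_add]; ring
  rw [this, map_mul]
  exact hn.mul hn'

theorem isBd_zero {w : L} : IsBd 𝒪 ex w 0 := isBd_of_isInt (by rw [map_zero]; exact isInt_zero)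

theorem isBd_one {w : L} : IsBd 𝒪 ex w 1 := isBd_of_isInt (by rw [map_one]; exact isInt_one)

theorem hasBd_of_isBd {w : L} {U : L} (h : IsBd 𝒪 ex w U) : HasBd 𝒪 ex w U :=
  ⟨U, 1, one_ne_zero, h, isBd_one, mul_one U⟩

theorem HasBd.add (h : GaussHyp 𝒪 ex w₀ w) {f g : L} (hf : HasBd 𝒪 ex w f)
    (hg : HasBd 𝒪 ex w g) : HasBd 𝒪 ex w (f + g) := by
  obtain ⟨U₁, U₂, h0, h1, h2, h3⟩ := hf
  obtain ⟨U₁', U₂', h0', h1', h2', h3'⟩ := hg
  refine ⟨U₁ * U₂' + U₁' * U₂, U₂ * U₂', mul_ne_zero h0 h0',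
    IsBd.add h (h1.mul h2') (h1'.mul h2), h2.mul h2', ?_⟩
  rw [← h3, ← h3']; ring

theorem HasBd.neg {w : L} {f : L} (hf : HasBd 𝒪 ex w f) : HasBd 𝒪 ex w (-f) := by
  obtain ⟨U₁, U₂, h0, h1, h2, h3⟩ := hf
  exact ⟨-U₁, U₂, h0, h1.neg, h2, by rw [← h3]; ring⟩

theorem HasBd.mul {w : L} {f g : L} (hf : HasBd 𝒪 ex w f) (hg : HasBd 𝒪 ex w g) :
    HasBd 𝒪 ex w (f * g) := by
  obtain ⟨U₁, U₂, h0, h1, h2, h3⟩ := hf
  obtain ⟨U₁', U₂', h0', h1', h2', h3'⟩ := hg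
  refine ⟨U₁ * U₁', U₂ * U₂', mul_ne_zero h0 h0', h1.mul h1', h2.mul h2', ?_⟩
  rw [← h3, ← h3']; ring

theorem HasBd.inv {w : L} {f : L} (hf : HasBd 𝒪 ex w f) : HasBd 𝒪 ex w f⁻¹ := by
  by_cases hf0 : f = 0
  · rw [hf0, inv_zero]; exact hasBd_of_isBd isBd_zero
  obtain ⟨U₁, U₂, h0, h1, h2, h3⟩ := hf
  have hU₁ : U₁ ≠ 0 := by rw [← h3]; exact mul_ne_zero hf0 h0
  refine ⟨U₂, U₁, hU₁, h2, h1, ?_⟩
  rw [← h3, ← mul_assoc, inv_mul_cancel₀ hf0, one_mul]

/-- every element of the subfield generated by elements with bounded denominators is a quotient of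
elements with bounded denominators -/
theorem hasBd_of_mem_closure (h : GaussHyp 𝒪 ex w₀ w) {S : Set L}
    (hS : ∀ s ∈ S, IsBd 𝒪 ex w s) {f : L} (hf : f ∈ Subfield.closure S) : HasBd 𝒪 ex w f := by
  induction hf using Subfield.closure_induction with
  | mem z hz => exact hasBd_of_isBd (hS z hz)
  | one => exact hasBd_of_isBd isBd_one
  | add y z _ _ hy hz => exact hy.add h hz
  | neg y _ hy => exact hy.neg
  | inv y _ hy => exact hy.inv
  | mul y z _ _ hy hz => exact hy.mul hz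


/-! ### The `gauss` field: primitive polynomials in a coordinate with a pole -/

theorem IsInt.sum {ι : Type*} (s : Finset ι) (F : ι → LaurentSeries K)
    (h : ∀ i ∈ s, IsInt 𝒪 (F i)) : IsInt 𝒪 (∑ i ∈ s, F i) := fun k => by
  rw [HahnSeries.coeff_sum]
  exact 𝒪.toSubring.sum_mem fun i hi => h i hi k

theorem leadingCoeff_pow' (y : LaurentSeries K) (i : ℕ) :
    (y ^ i).leadingCoeff = y.leadingCoeff ^ i := by
  induction i with
  | zero =>
    rw [pow_zero, pow_zero]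
    have : (1 : LaurentSeries K) = HahnSeries.C 1 := (map_one _).symm
    rw [this, HahnSeries.leadingCoeff_eq, HahnSeries.order_C, coeff_C_eq, if_pos rfl]
  | succ i ih => rw [pow_succ, HahnSeries.leadingCoeff_mul, ih, pow_succ]

/-- A polynomial with coefficients in `𝒪`, one of them a unit, in a coordinate `x` whose expansion
is integral with a pole of order `m > 0` and unit leading coefficient, has primitive expansion. -/
theorem isPrim_sum_of_pole {x : L} (hx : IsInt 𝒪 (ex x)) {m : ℕ} (hm : 0 < m)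
    (hord : (ex x).order = -(m : ℤ)) (hlead : 𝒪.valuation (ex x).leadingCoeff = 1)
    (c : ℕ → L) (c₀ : ℕ → K) (hc : ∀ i, ex (c i) = HahnSeries.C (c₀ i)) (hc₀ : ∀ i, c₀ i ∈ 𝒪)
    (N : ℕ) (hunit : ∃ i, i ≤ N ∧ 𝒪.valuation (c₀ i) = 1) :
    IsPrim 𝒪 (ex (∑ i ∈ Finset.range (N + 1), c i * x ^ i)) := by
  classical
  set v := 𝒪.valuation with hv
  set y := ex x with hy
  have hexp : ex (∑ i ∈ Finset.range (N + 1), c i * x ^ i)
      = ∑ i ∈ Finset.range (N + 1), HahnSeries.C (c₀ i) * y ^ i := by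
    rw [map_sum]
    refine Finset.sum_congr rfl fun i _ => ?_
    rw [map_mul, map_pow, hc]
  rw [hexp]
  have hyint : ∀ i, IsInt 𝒪 (y ^ i) := fun i => hx.pow i
  refine ⟨IsInt.sum _ _ fun i _ => (isInt_C (hc₀ i)).mul (hyint i), ?_⟩
  -- the largest index with a unit coefficient
  obtain ⟨i₁, hi₁N, hi₁⟩ := hunit
  set d := Nat.findGreatest (fun i => v (c₀ i) = 1) N with hd
  have hdN : d ≤ N := Nat.findGreatest_le N
  have hd1 : v (c₀ d) = 1 := Nat.findGreatest_spec (P := fun i => v (c₀ i) = 1) hi₁N hi₁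
  have hgt : ∀ i, d < i → i ≤ N → v (c₀ i) < 1 := fun i hdi hiN => by
    refine lt_of_le_of_ne ((𝒪.valuation_le_one_iff _).mpr (hc₀ i)) fun h1 => ?_
    exact Nat.findGreatest_is_greatest (P := fun i => v (c₀ i) = 1) hdi hiN h1
  have hy0 : y ≠ 0 := by
    intro h0
    rw [h0, HahnSeries.leadingCoeff_zero, map_zero] at hlead
    exact zero_ne_one hlead
  have hordi : ∀ i : ℕ, (y ^ i).order = -((m : ℤ) * i) := fun i => by
    rw [HahnSeries.order_pow, hord]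
    simp
    ring
  refine ⟨-((m : ℤ) * d), ?_⟩
  rw [HahnSeries.coeff_sum]
  have hmem : d ∈ Finset.range (N + 1) := Finset.mem_range.mpr (by omega)
  rw [← Finset.add_sum_erase _ _ hmem]
  have hmain : v ((HahnSeries.C (c₀ d) * y ^ d).coeff (-((m : ℤ) * d))) = 1 := by
    rw [coeff_C_mul_eq, map_mul, hd1, one_mul]
    have : (y ^ d).coeff (-((m : ℤ) * d)) = (y ^ d).leadingCoeff := by
      rw [HahnSeries.leadingCoeff_eq, hordi]
    rw [this, leadingCoeff_pow', map_pow, hlead, one_pow]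
  have hrest : v (∑ i ∈ (Finset.range (N + 1)).erase d,
      (HahnSeries.C (c₀ i) * y ^ i).coeff (-((m : ℤ) * d))) < 1 := by
    apply Valuation.map_sum_lt v one_ne_zero
    intro i hi
    rw [Finset.mem_erase, Finset.mem_range] at hi
    obtain ⟨hne, hiN⟩ := hi
    rw [coeff_C_mul_eq, map_mul]
    rcases lt_or_gt_of_ne hne with hlt | hgt'
    · -- `i < d`: the coefficient vanishes
      have h0 : (y ^ i).coeff (-((m : ℤ) * d)) = 0 := by
        apply HahnSeries.coeff_eq_zero_of_lt_order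
        rw [hordi]
        have h1 : (i : ℤ) < d := by exact_mod_cast hlt
        have h2 : (0 : ℤ) < m := by exact_mod_cast hm
        nlinarith
      rw [h0, map_zero, mul_zero]
      exact zero_lt_one
    · have h1 : v ((y ^ i).coeff (-((m : ℤ) * d))) ≤ 1 :=
        (𝒪.valuation_le_one_iff _).mpr (hyint i _)
      exact mul_lt_one_of_lt_of_le (hgt i hgt' (by omega)) h1
  rw [Valuation.map_add_eq_of_lt_left v (by rw [hmain]; exact hrest), hmain]

/-! ### The `t_V` field: the substitution `X ↦ ζ X` -/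

theorem isInt_of_twist {ζ : K} (hζ : 𝒪.valuation ζ = 1) {s s' : LaurentSeries K}
    (h : ∀ k : ℤ, s'.coeff k = ζ ^ k * s.coeff k) (hs : IsInt 𝒪 s) : IsInt 𝒪 s' := by
  rw [isInt_iff] at hs ⊢
  intro k
  rw [h k, map_mul, map_zpow₀, hζ, one_zpow, one_mul]
  exact hs k

theorem isPrim_of_twist {ζ : K} (hζ : 𝒪.valuation ζ = 1) {s s' : LaurentSeries K}
    (h : ∀ k : ℤ, s'.coeff k = ζ ^ k * s.coeff k) (hs : IsPrim 𝒪 s) : IsPrim 𝒪 s' := by
  refine ⟨isInt_of_twist hζ h hs.1, ?_⟩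
  obtain ⟨k, hk⟩ := hs.2
  exact ⟨k, by rw [h k, map_mul, map_zpow₀, hζ, one_zpow, one_mul, hk]⟩

theorem mem_gaussRing_of_twist (τ : L →+* L) {ζ : K} (hζ : 𝒪.valuation ζ = 1)
    (hτ : ∀ (f : L) (k : ℤ), (ex (τ f)).coeff k = ζ ^ k * (ex f).coeff k) {f : L}
    (hf : f ∈ gaussRing 𝒪 ex) : τ f ∈ gaussRing 𝒪 ex := by
  obtain ⟨U₁, U₂, h1, h2, h3⟩ := hf
  exact ⟨τ U₁, τ U₂, isInt_of_twist hζ (hτ U₁) h1, isPrim_of_twist hζ (hτ U₂) h2,
    by rw [← map_mul, h3]⟩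

/-- **Field `t_V`.**  An automorphism acting on expansions by `X ↦ ζ X`, `ζ` a unit of `𝒪`,
preserves the Gauss valuation ring. -/
theorem smul_mem_gaussRing_iff (τ : L ≃+* L) {ζ : K} (hζ : 𝒪.valuation ζ = 1)
    (hτ : ∀ (f : L) (k : ℤ), (ex (τ f)).coeff k = ζ ^ k * (ex f).coeff k) (f : L) :
    τ f ∈ gaussRing 𝒪 ex ↔ f ∈ gaussRing 𝒪 ex := by
  have hζ0 : ζ ≠ 0 := by
    intro h0
    rw [h0, map_zero] at hζ
    exact zero_ne_one hζ
  constructor
  · intro h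
    have hζ' : 𝒪.valuation ζ⁻¹ = 1 := by rw [map_inv₀, hζ, inv_one]
    have hτ' : ∀ (g : L) (k : ℤ),
        (ex ((τ.symm : L →+* L) g)).coeff k = ζ⁻¹ ^ k * (ex g).coeff k := by
      intro g k
      have h1 := hτ (τ.symm g) k
      rw [RingEquiv.apply_symm_apply] at h1
      rw [h1, ← mul_assoc, ← mul_zpow, inv_mul_cancel₀ hζ0, one_zpow, one_mul]
      rfl
    have := mem_gaussRing_of_twist (τ.symm : L →+* L) hζ' hτ' h
    simpa using this
  · exact mem_gaussRing_of_twist (τ : L →+* L) hζ hτ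

end Field

end Fermat.Agent.S48.H856
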