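import Fermat.Agent.S48.H856.IgusaS18
import Fermat.Agent.S48.H856.GaussRing

/-!
# S48 / RES / IGUSA1 — constructor of `IgusaData` from an expansion map (helper856)

`L` = a field carrying the action and the expansion (so `Ω = L`), with
* constants `const : K →+* L` (`K = E` a number field, `𝒪 = A ∩ E` discrete with uniformiser `w₀`),
* an expansion map `ex : L →+* K((X))`, `ex (const c) = C c`, and a subfield `Ffull` of `L` all of
  whose elements are quotients of elements with bounded denominators (`HasBd`),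
* a coordinate `x` (`= j`) whose expansion is integral with a pole with unit leading coefficient,
* a finite group `G ≤ Aut L` fixing constants and `x`, with `L^G ⊆ K(x)`; `B ≤ G`; `t ∈ B`
  acting on expansions by `X ↦ ζ X` (`ζ` a unit of `𝒪`), `B` normalising `⟨t⟩`, the
  `G`-conjugates of `t` generating `G`,
* `F0 ⊇ L^B` satisfying the `q`-expansion principle `qep0` (Igusa for `X₀(M)`, landed S28).

`igusaData_of_expansion` produces the `IgusaData`, hence (`IgusaData.qep_fin`) the `q`-expansion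
principle for every subfield of `L`.
-/

set_option autoImplicit false

open HahnSeries Polynomial

namespace Fermat.Agent.S48.H856

open Fermat.Agent.S18.Alg

variable {K : Type*} [Field K] {𝒪 : ValuationSubring K} {L : Type*} [Field L]
  {ex : L →+* LaurentSeries K}

/-- the expansion of a polynomial in `x` over the constants -/
theorem ex_eval_eq (const : K →+* L) (hconst : ∀ c, ex (const c) = HahnSeries.C c) (x : L)
    (c₀ : ℕ → K) (N : ℕ) :
    ex (∑ i ∈ Finset.range (N + 1), const (c₀ i) * x ^ i)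
      = ∑ i ∈ Finset.range (N + 1), HahnSeries.C (c₀ i) * ex x ^ i := by
  rw [map_sum]
  exact Finset.sum_congr rfl fun i _ => by rw [map_mul, map_pow, hconst]

/-- a coordinate with a pole is transcendental over the constants -/
theorem sum_ne_zero_of_pole {x : L} {m : ℕ} (hm : 0 < m) (hord : (ex x).order = -(m : ℤ))
    (hx0 : ex x ≠ 0) (const : K →+* L) (hconst : ∀ c, ex (const c) = HahnSeries.C c)
    (c₀ : ℕ → K) (N : ℕ) (hN : c₀ N ≠ 0) :
    ∑ i ∈ Finset.range (N + 1), const (c₀ i) * x ^ i ≠ 0 := by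
  classical
  intro h0
  have h1 := congrArg ex h0
  rw [ex_eval_eq const hconst, map_zero] at h1
  have h2 := congrArg (fun s => s.coeff (-((m : ℤ) * N))) h1
  simp only [HahnSeries.coeff_sum, HahnSeries.coeff_zero] at h2
  have hordi : ∀ i : ℕ, (ex x ^ i).order = -((m : ℤ) * i) := fun i => by
    rw [HahnSeries.order_pow, hord]
    simp
    ring
  have hmem : N ∈ Finset.range (N + 1) := Finset.mem_range.mpr (by omega)
  rw [← Finset.add_sum_erase _ _ hmem] at h2
  have hrest : ∑ i ∈ (Finset.range (N + 1)).erase N,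
      (HahnSeries.C (c₀ i) * ex x ^ i).coeff (-((m : ℤ) * N)) = 0 := by
    apply Finset.sum_eq_zero
    intro i hi
    rw [Finset.mem_erase, Finset.mem_range] at hi
    rw [coeff_C_mul_eq]
    have : (ex x ^ i).coeff (-((m : ℤ) * N)) = 0 := by
      apply HahnSeries.coeff_eq_zero_of_lt_order
      rw [hordi]
      have h3 : (i : ℤ) < N := by
        have : i < N := lt_of_le_of_ne (by omega) hi.1
        exact_mod_cast this
      have h4 : (0 : ℤ) < m := by exact_mod_cast hm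
      nlinarith
    rw [this, mul_zero]
  rw [hrest, add_zero, coeff_C_mul_eq] at h2
  have h5 : (ex x ^ N).coeff (-((m : ℤ) * N)) = (ex x ^ N).leadingCoeff := by
    rw [HahnSeries.leadingCoeff_eq, hordi]
  rw [h5, leadingCoeff_pow'] at h2
  have h6 : (ex x).leadingCoeff ≠ 0 := HahnSeries.leadingCoeff_ne_zero.mpr hx0
  exact mul_ne_zero hN (pow_ne_zero _ h6) h2

/-- an element of the image of `𝒪` is `const c` with `c ∈ 𝒪` -/
theorem exists_of_mem_map (const : K →+* L) {r : L} (hr : r ∈ 𝒪.toSubring.map const) :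
    ∃ c ∈ 𝒪, const c = r := by
  obtain ⟨c, hc, rfl⟩ := hr
  exact ⟨c, hc, rfl⟩

theorem mem_map_of_mem (const : K →+* L) {c : K} (hc : c ∈ 𝒪) :
    const c ∈ 𝒪.toSubring.map const := ⟨c, hc, rfl⟩

/-- a nonzero element of `𝒪` is a unit times a NATURAL power of the uniformiser -/
theorem exists_nat_pow_of_mem {w₀ : K} (hd : IsDiscrete 𝒪 w₀) {c : K} (hc : c ∈ 𝒪)
    (hc0 : c ≠ 0) : ∃ n : ℕ, 𝒪.valuation (c * (w₀⁻¹) ^ n) = 1 := by
  obtain ⟨n, hn⟩ := hd.disc c hc0
  have hw0 : 𝒪.valuation w₀ ≠ 0 := (Valuation.ne_zero_iff _).mpr hd.w_ne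
  have hn0 : 0 ≤ n := by
    by_contra hneg
    rw [not_le] at hneg
    have h1 : 𝒪.valuation c ≤ 1 := (𝒪.valuation_le_one_iff _).mpr hc
    have h2 : 1 < 𝒪.valuation w₀ ^ n := by
      obtain ⟨k, hk⟩ : ∃ k : ℕ, n = -((k : ℤ) + 1) := ⟨(-n - 1).toNat, by omega⟩
      rw [hk, zpow_neg, ← inv_zpow]
      have h3 : 1 < (𝒪.valuation w₀)⁻¹ := by
        rw [one_lt_inv₀ (zero_lt_iff.mpr hw0)]
        exact hd.w_lt
      have h4 : ((𝒪.valuation w₀)⁻¹) ^ ((k : ℤ) + 1) = ((𝒪.valuation w₀)⁻¹) ^ (k + 1) := by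
        exact_mod_cast zpow_natCast ((𝒪.valuation w₀)⁻¹) (k + 1)
      rw [h4]
      exact one_lt_pow₀ h3 (by omega)
    rw [← hn] at h2
    exact absurd h1 (not_le.mpr h2)
  refine ⟨n.toNat, ?_⟩
  rw [map_mul, map_pow, map_inv₀, hn]
  have h5 : 𝒪.valuation w₀ ^ n = 𝒪.valuation w₀ ^ n.toNat := by
    conv_lhs => rw [← Int.toNat_of_nonneg hn0]
    exact zpow_natCast _ _
  rw [h5, inv_pow, mul_inv_cancel₀ (pow_ne_zero _ hw0)]

theorem mem_and_inv_mem_of_valuation_eq_one {c : K} (h : 𝒪.valuation c = 1) :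
    c ∈ 𝒪 ∧ c⁻¹ ∈ 𝒪 := by
  constructor
  · exact (𝒪.valuation_le_one_iff _).mp h.le
  · apply (𝒪.valuation_le_one_iff _).mp
    rw [map_inv₀, h, inv_one]

/-- **Constructor of `IgusaData` from an expansion map.**  `Ffull` is any subfield of `L` all of
whose elements are quotients of elements with bounded denominators. -/
theorem igusaData_of_expansion
    (const : K →+* L) (hconst : ∀ c, ex (const c) = HahnSeries.C c)
    {w₀ : K} (hG : GaussHyp 𝒪 ex w₀ (const w₀))
    (Ffull : Subfield L) (hbd : ∀ f ∈ Ffull, HasBd 𝒪 ex (const w₀) f)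
    (hconstF : ∀ c, const c ∈ Ffull)
    {x : L} (hxF : x ∈ Ffull) (hx : IsInt 𝒪 (ex x)) {m : ℕ} (hm : 0 < m)
    (hord : (ex x).order = -(m : ℤ)) (hlead : 𝒪.valuation (ex x).leadingCoeff = 1)
    (F0 : Subfield L) (G B : Subgroup (L ≃+* L)) (t : L ≃+* L)
    (hGfin : Finite G)
    (hGE : ∀ g ∈ G, ∀ c : K, g (const c) = const c)
    (hGx : ∀ g ∈ G, g x = x)
    (hGF : ∀ g ∈ G, ∀ f ∈ Ffull, g f ∈ Ffull)
    (hGinv : ∀ f ∈ Ffull, (∀ g ∈ G, g f = f) → f ∈ ratField const.fieldRange x)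
    (hBG : B ≤ G) (htB : t ∈ B)
    (htn : ∀ b ∈ B, b * t * b⁻¹ ∈ Subgroup.zpowers t)
    (htgen : G ≤ Subgroup.closure {s | ∃ g ∈ G, s = g * t * g⁻¹})
    {ζ : K} (hζ : 𝒪.valuation ζ = 1)
    (htw : ∀ (f : L) (k : ℤ), (ex (t f)).coeff k = ζ ^ k * (ex f).coeff k)
    (hBinv : ∀ f ∈ Ffull, (∀ b ∈ B, b f = f) → f ∈ F0)
    (hqep0 : ∀ b ∈ chart F0 (𝒪.toSubring.map const) x,
      b * (const w₀)⁻¹ ∈ gaussRing 𝒪 ex → b * (const w₀)⁻¹ ∈ chart F0 (𝒪.toSubring.map const) x) :
    IgusaData const.fieldRange F0 Ffull (𝒪.toSubring.map const) (gaussRing 𝒪 ex) (const w₀) x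
      G B t := by
  classical
  have hx0 : ex x ≠ 0 := by
    intro h0
    rw [h0, HahnSeries.order_zero] at hord
    have : (0 : ℤ) < m := by exact_mod_cast hm
    omega
  have hw₀mem : w₀ ∈ 𝒪 := (𝒪.valuation_le_one_iff _).mp hG.disc.w_lt.le
  have hRV : 𝒪.toSubring.map const ≤ gaussRing 𝒪 ex := by
    intro r hr
    obtain ⟨c, hc, rfl⟩ := exists_of_mem_map const hr
    exact mem_gaussRing_of_isInt (by rw [hconst]; exact isInt_C hc)
  refine
    { R_le := ?_, R_total := ?_, w_mem := mem_map_of_mem const hw₀mem,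
      w_ne_zero := hG.w_ne_zero, w_inv_not_mem := fun h => hG.w_inv_notMem (hRV h),
      w_discrete := ?_, E_le := ?_, x_mem := hxF,
      x_transcendental := ?_, R_le_V := hRV, x_mem_V := mem_gaussRing_of_isInt hx,
      V_total := fun f hf => hG.total (hbd f hf), w_inv_not_mem_V := hG.w_inv_notMem,
      V_discrete := fun f hf hf0 => hG.discrete (hbd f hf) hf0, gauss := ?_, G_finite := hGfin,
      G_fix_E := ?_, G_fix_x := hGx, G_stable := hGF,
      G_inv := hGinv, B_le := hBG, t_mem := htB, t_normal := htn,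
      t_gen := htgen, t_V := fun f _ => smul_mem_gaussRing_iff t hζ htw f,
      B_inv := hBinv, qep0 := hqep0 }
  · -- R_le
    intro r hr
    obtain ⟨c, _, rfl⟩ := exists_of_mem_map const hr
    exact ⟨c, rfl⟩
  · -- R_total
    rintro e ⟨c, rfl⟩
    rcases 𝒪.mem_or_inv_mem c with h | h
    · exact Or.inl (mem_map_of_mem const h)
    · right
      rw [← map_inv₀]
      exact mem_map_of_mem const h
  · -- w_discrete
    intro r hr hr0
    obtain ⟨c, hc, rfl⟩ := exists_of_mem_map const hr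
    have hc0 : c ≠ 0 := fun h => hr0 (by rw [h, map_zero])
    obtain ⟨n, hn⟩ := exists_nat_pow_of_mem hG.disc hc hc0
    obtain ⟨h1, h2⟩ := mem_and_inv_mem_of_valuation_eq_one hn
    refine ⟨n, ?_, ?_⟩
    · have : const c * (const w₀)⁻¹ ^ n = const (c * (w₀⁻¹) ^ n) := by
        rw [map_mul, map_pow, map_inv₀]
      rw [this]; exact mem_map_of_mem const h1
    · have : (const c * (const w₀)⁻¹ ^ n)⁻¹ = const ((c * (w₀⁻¹) ^ n)⁻¹) := by
        rw [map_inv₀, map_mul, map_pow, map_inv₀]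
      rw [this]; exact mem_map_of_mem const h2
  · -- E_le
    rintro e ⟨c, rfl⟩
    exact hconstF c
  · -- x_transcendental
    rw [transcendental_iff]
    intro P hP
    by_contra hP0
    have hcoeff : ∀ i, ∃ c ∈ 𝒪, const c = (P.coeff i : L) := fun i =>
      exists_of_mem_map const (P.coeff i).2
    choose c₀ hc₀ hc₀' using hcoeff
    have hsum : Polynomial.aeval x P
        = ∑ i ∈ Finset.range (P.natDegree + 1), const (c₀ i) * x ^ i := by
      rw [Polynomial.aeval_eq_sum_range]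
      refine Finset.sum_congr rfl fun i _ => ?_
      rw [hc₀' i, Algebra.smul_def]
      rfl
    have hN : c₀ P.natDegree ≠ 0 := by
      intro h0
      have h1 : (P.coeff P.natDegree : L) = 0 := by rw [← hc₀', h0, map_zero]
      have h2 : P.coeff P.natDegree = 0 := Subtype.ext h1
      exact hP0 (Polynomial.leadingCoeff_eq_zero.mp h2)
    exact sum_ne_zero_of_pole hm hord hx0 const hconst c₀ P.natDegree hN (hsum ▸ hP)
  · -- gauss
    intro P hPc hPu
    have hcoeff : ∀ i, ∃ c ∈ 𝒪, const c = P.coeff i := fun i =>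
      exists_of_mem_map const (hPc i)
    choose c₀ hc₀ hc₀' using hcoeff
    have hsum : P.eval x = ∑ i ∈ Finset.range (P.natDegree + 1), const (c₀ i) * x ^ i := by
      rw [Polynomial.eval_eq_sum_range]
      exact Finset.sum_congr rfl fun i _ => by rw [hc₀' i]
    rw [hsum]
    apply inv_mem_gaussRing_of_isPrim
    obtain ⟨i₀, hi₀, hi₀'⟩ := hPu
    apply isPrim_sum_of_pole hx hm hord hlead (fun i => const (c₀ i)) c₀ (fun i => hconst _) hc₀
    refine ⟨i₀, Polynomial.le_natDegree_of_ne_zero hi₀, ?_⟩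
    obtain ⟨d, hd, hd'⟩ := exists_of_mem_map const hi₀'
    have h1 : d = (c₀ i₀)⁻¹ := by
      apply const.injective
      rw [hd', map_inv₀, hc₀']
    have h2 : 𝒪.valuation (c₀ i₀) ≤ 1 := (𝒪.valuation_le_one_iff _).mpr (hc₀ i₀)
    have h3 : 𝒪.valuation (c₀ i₀)⁻¹ ≤ 1 := (𝒪.valuation_le_one_iff _).mpr (h1 ▸ hd)
    have hc0 : c₀ i₀ ≠ 0 := fun h => hi₀ (by rw [← hc₀', h, map_zero])
    have hv0 : 𝒪.valuation (c₀ i₀) ≠ 0 := (Valuation.ne_zero_iff _).mpr hc0
    rw [map_inv₀] at h3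
    have h4 : 1 ≤ 𝒪.valuation (c₀ i₀) := by
      rwa [inv_le_one₀ (zero_lt_iff.mpr hv0)] at h3
    exact le_antisymm h2 h4
  · -- G_fix_E
    rintro g hg a ⟨c, rfl⟩
    exact hGE g hg c

/-- **IGUSA1, expansion form**: the `q`-expansion principle for every subfield `Fc ≤ Ffull`
containing the uniformiser. -/
theorem qep_fin_of_expansion
    (const : K →+* L) (hconst : ∀ c, ex (const c) = HahnSeries.C c)
    {w₀ : K} (hG : GaussHyp 𝒪 ex w₀ (const w₀))
    (Ffull : Subfield L) (hbd : ∀ f ∈ Ffull, HasBd 𝒪 ex (const w₀) f)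
    (hconstF : ∀ c, const c ∈ Ffull)
    {x : L} (hxF : x ∈ Ffull) (hx : IsInt 𝒪 (ex x)) {m : ℕ} (hm : 0 < m)
    (hord : (ex x).order = -(m : ℤ)) (hlead : 𝒪.valuation (ex x).leadingCoeff = 1)
    (F0 : Subfield L) (G B : Subgroup (L ≃+* L)) (t : L ≃+* L)
    (hGfin : Finite G)
    (hGE : ∀ g ∈ G, ∀ c : K, g (const c) = const c)
    (hGx : ∀ g ∈ G, g x = x)
    (hGF : ∀ g ∈ G, ∀ f ∈ Ffull, g f ∈ Ffull)
    (hGinv : ∀ f ∈ Ffull, (∀ g ∈ G, g f = f) → f ∈ ratField const.fieldRange x)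
    (hBG : B ≤ G) (htB : t ∈ B)
    (htn : ∀ b ∈ B, b * t * b⁻¹ ∈ Subgroup.zpowers t)
    (htgen : G ≤ Subgroup.closure {s | ∃ g ∈ G, s = g * t * g⁻¹})
    {ζ : K} (hζ : 𝒪.valuation ζ = 1)
    (htw : ∀ (f : L) (k : ℤ), (ex (t f)).coeff k = ζ ^ k * (ex f).coeff k)
    (hBinv : ∀ f ∈ Ffull, (∀ b ∈ B, b f = f) → f ∈ F0)
    (hqep0 : ∀ b ∈ chart F0 (𝒪.toSubring.map const) x,
      b * (const w₀)⁻¹ ∈ gaussRing 𝒪 ex → b * (const w₀)⁻¹ ∈ chart F0 (𝒪.toSubring.map const) x)
    (Fc : Subfield L) (hFc : Fc ≤ Ffull) (hwFc : const w₀ ∈ Fc) :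
    ∀ b ∈ chart Fc (𝒪.toSubring.map const) x,
      b * (const w₀)⁻¹ ∈ gaussRing 𝒪 ex → b * (const w₀)⁻¹ ∈ chart Fc (𝒪.toSubring.map const) x :=
  (igusaData_of_expansion const hconst hG Ffull hbd hconstF hxF hx hm hord hlead F0 G B t hGfin
    hGE hGx hGF hGinv hBG htB htn htgen hζ htw hBinv hqep0).qep_fin Fc hFc hwFc

end Fermat.Agent.S48.H856
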